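import Fermat.Agent.Lib.Mazur.G.An.Basic

/-!
# MAZUR (G), analysis chain AN3: the addition theorem for `℘`

For `w ∉ L` the function `G(z) = λ²/4 - ℘ z - ℘ w`, `λ = (℘' z - ℘' w)/(℘ z - ℘ w)`, satisfies
`G' = G₁`, `G₁' = 6 G² - g₂/2`, extends analytically to `z = 0` with `G(0) = ℘ w`,
`G'(0) = ℘' w`; by ODE uniqueness and the identity theorem `G(z) = ℘ (z + w)`.

Pure Mathlib.
-/

open Filter Topology
open scoped PeriodPair

namespace Fermat.Agent.Mazur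

/-- The slope `λ(z) = (℘' z - ℘' w) / (℘ z - ℘ w)`. -/
noncomputable def mzgaLam (L : PeriodPair) (w z : ℂ) : ℂ :=
  (℘'[L] z - ℘'[L] w) / (℘[L] z - ℘[L] w)

/-- The candidate `G(z) = λ²/4 - ℘ z - ℘ w` for `℘ (z + w)`. -/
noncomputable def mzgaG (L : PeriodPair) (w z : ℂ) : ℂ :=
  mzgaLam L w z ^ 2 / 4 - ℘[L] z - ℘[L] w

/-- The candidate `G₁(z) = -(λ (G - ℘ z) + ℘' z)` for `℘' (z + w)`. -/
noncomputable def mzgaG1 (L : PeriodPair) (w z : ℂ) : ℂ :=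
  -(mzgaLam L w z * (mzgaG L w z - ℘[L] z) + ℘'[L] z)

theorem mzga_hasDerivAt_derivWeierstrassP (L : PeriodPair) {z : ℂ} (hz : z ∉ L.lattice) :
    HasDerivAt ℘'[L] (6 * ℘[L] z ^ 2 - L.g₂ / 2) z := by
  have := (mzga_analyticAt_derivWeierstrassP L hz).differentiableAt.hasDerivAt
  rwa [mzga_deriv_derivWeierstrassP L hz] at this

theorem mzga_hasDerivAt_lam (L : PeriodPair) {w z : ℂ} (hw : w ∉ L.lattice) (hz : z ∉ L.lattice)
    (hne : ℘[L] z ≠ ℘[L] w) :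
    HasDerivAt (mzgaLam L w) (2 * (℘[L] z - mzgaG L w z)) z := by
  have hxy := L.derivWeierstrassP_sq z hz
  have hab := L.derivWeierstrassP_sq w hw
  have hne' : ℘[L] z - ℘[L] w ≠ 0 := sub_ne_zero.mpr hne
  have h1 := ((mzga_hasDerivAt_derivWeierstrassP L hz).sub_const (℘'[L] w)).div
    ((mzga_hasDerivAt_weierstrassP L hz).sub_const (℘[L] w)) hne'
  refine h1.congr_deriv ?_
  simp only [mzgaG, mzgaLam]
  field_simp
  linear_combination (-4 : ℂ) * hxy + 4 * hab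

theorem mzga_hasDerivAt_G (L : PeriodPair) {w z : ℂ} (hw : w ∉ L.lattice) (hz : z ∉ L.lattice)
    (hne : ℘[L] z ≠ ℘[L] w) :
    HasDerivAt (mzgaG L w) (mzgaG1 L w z) z := by
  have h1 := ((((mzga_hasDerivAt_lam L hw hz hne).fun_pow 2).div_const 4).sub
    (mzga_hasDerivAt_weierstrassP L hz)).sub_const (℘[L] w)
  refine h1.congr_deriv ?_
  simp only [mzgaG1]
  ring

theorem mzga_hasDerivAt_G1 (L : PeriodPair) {w z : ℂ} (hw : w ∉ L.lattice) (hz : z ∉ L.lattice)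
    (hne : ℘[L] z ≠ ℘[L] w) :
    HasDerivAt (mzgaG1 L w) (6 * mzgaG L w z ^ 2 - L.g₂ / 2) z := by
  have hxy := L.derivWeierstrassP_sq z hz
  have hab := L.derivWeierstrassP_sq w hw
  have hne' : ℘[L] z - ℘[L] w ≠ 0 := sub_ne_zero.mpr hne
  have h1 := (((mzga_hasDerivAt_lam L hw hz hne).mul
    ((mzga_hasDerivAt_G L hw hz hne).sub (mzga_hasDerivAt_weierstrassP L hz))).add
    (mzga_hasDerivAt_derivWeierstrassP L hz)).neg
  refine h1.congr_deriv ?_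
  simp only [mzgaG1, mzgaG, mzgaLam, Pi.sub_apply]
  field_simp
  grind


theorem mzga_except_zero (L : PeriodPair) (z : ℂ) :
    ℘[L - (0 : ℂ)] z = ℘[L] z - 1 / z ^ 2 := by
  have := L.weierstrassPExcept_def (0 : L.lattice) z
  simp only [ZeroMemClass.coe_zero, sub_zero] at this
  rw [this]; simp; ring

theorem mzga_derivExcept_zero (L : PeriodPair) (z : ℂ) :
    ℘'[L - (0 : ℂ)] z = ℘'[L] z + 2 / z ^ 3 := by
  have := L.derivWeierstrassPExcept_def (0 : L.lattice) z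
  simpa using this

/-- `ν(z) = (z n + 2 m) / (1 + z² m)` with `m = e - ℘ w`, `n = e' - ℘' w`. -/
noncomputable def mzgaNu (L : PeriodPair) (w z : ℂ) : ℂ :=
  (z * (℘'[L - (0 : ℂ)] z - ℘'[L] w) + 2 * (℘[L - (0 : ℂ)] z - ℘[L] w)) /
    (1 + z ^ 2 * (℘[L - (0 : ℂ)] z - ℘[L] w))

/-- The analytic continuation of `G` to a neighbourhood of `0`. -/
noncomputable def mzgaGt (L : PeriodPair) (w z : ℂ) : ℂ :=
  -mzgaNu L w z + z ^ 2 * mzgaNu L w z ^ 2 / 4 - ℘[L - (0 : ℂ)] z - ℘[L] w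

theorem mzga_hasDerivAt_except_zero (L : PeriodPair) : HasDerivAt ℘[L - (0 : ℂ)] 0 0 := by
  have := (L.analyticAt_weierstrassPExcept 0).differentiableAt.hasDerivAt
  rwa [L.deriv_weierstrassPExcept_same, L.derivWeierstrassPExcept_zero_zero] at this

theorem mzga_hasDerivAt_nu (L : PeriodPair) (w : ℂ) : HasDerivAt (mzgaNu L w) (-℘'[L] w) 0 := by
  have he := mzga_hasDerivAt_except_zero L
  have he' : HasDerivAt ℘'[L - (0 : ℂ)] (deriv ℘'[L - (0 : ℂ)] 0) 0 :=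
    (L.analyticAt_derivWeierstrassPExcept 0).differentiableAt.hasDerivAt
  have hid : HasDerivAt (fun z : ℂ => z) 1 0 := hasDerivAt_id 0
  have hnum := (hid.mul (he'.sub_const (℘'[L] w))).add ((he.sub_const (℘[L] w)).const_mul 2)
  have hden := ((hid.fun_pow 2).mul (he.sub_const (℘[L] w))).const_add 1
  have h := hnum.div hden (by simp)
  refine (h.congr_deriv ?_)
  simp

theorem mzga_Gt_zero (L : PeriodPair) (w : ℂ) : mzgaGt L w 0 = ℘[L] w := by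
  simp [mzgaGt, mzgaNu]; ring

theorem mzga_hasDerivAt_Gt (L : PeriodPair) (w : ℂ) : HasDerivAt (mzgaGt L w) (℘'[L] w) 0 := by
  have he := mzga_hasDerivAt_except_zero L
  have hid : HasDerivAt (fun z : ℂ => z) 1 0 := hasDerivAt_id 0
  have hν := mzga_hasDerivAt_nu L w
  have h := (((hν.neg).add (((hid.fun_pow 2).mul (hν.fun_pow 2)).div_const 4)).sub he).sub_const
    (℘[L] w)
  refine (h.congr_deriv ?_)
  simp

theorem mzga_analyticAt_nu (L : PeriodPair) (w : ℂ) : AnalyticAt ℂ (mzgaNu L w) 0 := by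
  have he := L.analyticAt_weierstrassPExcept 0
  have he' := L.analyticAt_derivWeierstrassPExcept 0
  unfold mzgaNu
  refine AnalyticAt.div (by fun_prop) (by fun_prop) (by simp)

theorem mzga_analyticAt_Gt (L : PeriodPair) (w : ℂ) : AnalyticAt ℂ (mzgaGt L w) 0 := by
  have he := L.analyticAt_weierstrassPExcept 0
  have hν := mzga_analyticAt_nu L w
  unfold mzgaGt
  fun_prop


/-! ### `G = Gt` near `0` -/

theorem mzga_G_eq_Gt (L : PeriodPair) {w z : ℂ} (hz : z ∉ L.lattice)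
    (hden : 1 + z ^ 2 * (℘[L - (0 : ℂ)] z - ℘[L] w) ≠ 0) :
    ℘[L] z ≠ ℘[L] w ∧ mzgaG L w z = mzgaGt L w z := by
  have hz0 : z ≠ 0 := by rintro rfl; exact hz (zero_mem _)
  have h1 : ℘[L] z = ℘[L - (0 : ℂ)] z + 1 / z ^ 2 := by rw [mzga_except_zero]; ring
  have h2 : ℘'[L] z = ℘'[L - (0 : ℂ)] z - 2 / z ^ 3 := by rw [mzga_derivExcept_zero]; ring
  have hsub : ℘[L] z - ℘[L] w = (1 + z ^ 2 * (℘[L - (0 : ℂ)] z - ℘[L] w)) / z ^ 2 := by
    rw [h1]; field_simp; ring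
  have hne : ℘[L] z - ℘[L] w ≠ 0 := by
    rw [hsub]; exact div_ne_zero hden (pow_ne_zero 2 hz0)
  refine ⟨sub_ne_zero.mp hne, ?_⟩
  simp only [mzgaG, mzgaLam, mzgaGt, mzgaNu]
  rw [hsub, h1, h2]
  field_simp
  ring

/-! ### The addition theorem -/

/-- The set on which `G` is defined. -/
def mzgaGood (L : PeriodPair) (w : ℂ) : Set ℂ := {z | z ∉ L.lattice ∧ ℘[L] z ≠ ℘[L] w}

theorem mzgaGood_eq (L : PeriodPair) {w : ℂ} (hw : w ∉ L.lattice) :
    mzgaGood L w = ((L.lattice : Set ℂ) ∪ mzgaShift L (-w) ∪ mzgaShift L w)ᶜ := by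
  ext z
  simp only [mzgaGood, mzgaShift, Set.mem_ofPred_eq, Set.mem_compl_iff, Set.mem_union,
    SetLike.mem_coe, not_or]
  constructor
  · rintro ⟨hz, hne⟩
    have := (mzga_weierstrassP_eq_iff L hz hw).not.mp hne
    rw [not_or] at this
    exact ⟨⟨hz, by simpa [sub_eq_add_neg] using this.1⟩, this.2⟩
  · rintro ⟨⟨hz, h1⟩, h2⟩
    refine ⟨hz, (mzga_weierstrassP_eq_iff L hz hw).not.mpr ?_⟩
    rw [not_or]
    exact ⟨by simpa [sub_eq_add_neg] using h1, h2⟩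

theorem mzgaGood_isOpen (L : PeriodPair) {w : ℂ} (hw : w ∉ L.lattice) :
    IsOpen (mzgaGood L w) := by
  rw [mzgaGood_eq L hw]
  exact ((L.isClosed_lattice.union (mzga_isClosed_shift L _)).union
    (mzga_isClosed_shift L _)).isOpen_compl

theorem mzgaGood_isPreconnected (L : PeriodPair) {w : ℂ} (hw : w ∉ L.lattice) :
    IsPreconnected (mzgaGood L w) := by
  rw [mzgaGood_eq L hw]
  exact mzga_isPreconnected_compl (((mzga_countable_lattice L).union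
    (mzga_countable_shift L _)).union (mzga_countable_shift L _))

theorem mzgaGood_add_notMem (L : PeriodPair) {w z : ℂ} (hw : w ∉ L.lattice)
    (hz : z ∈ mzgaGood L w) : z + w ∉ L.lattice := by
  rw [mzgaGood_eq L hw] at hz
  intro h
  exact hz (Or.inr h)

theorem mzga_analyticAt_G (L : PeriodPair) {w z : ℂ} (hz : z ∈ mzgaGood L w) :
    AnalyticAt ℂ (mzgaG L w) z := by
  have h1 := mzga_analyticAt_weierstrassP L hz.1
  have h2 := mzga_analyticAt_derivWeierstrassP L hz.1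
  have hne : ℘[L] z - ℘[L] w ≠ 0 := sub_ne_zero.mpr hz.2
  have hlam : AnalyticAt ℂ (mzgaLam L w) z := by
    unfold mzgaLam
    exact AnalyticAt.div (by fun_prop) (by fun_prop) hne
  unfold mzgaG
  fun_prop

theorem mzga_deriv_G (L : PeriodPair) {w z : ℂ} (hw : w ∉ L.lattice) (hz : z ∈ mzgaGood L w) :
    deriv (mzgaG L w) z = mzgaG1 L w z :=
  (mzga_hasDerivAt_G L hw hz.1 hz.2).deriv

theorem mzga_deriv_deriv_G (L : PeriodPair) {w z : ℂ} (hw : w ∉ L.lattice)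
    (hz : z ∈ mzgaGood L w) :
    deriv (deriv (mzgaG L w)) z = 6 * mzgaG L w z ^ 2 - L.g₂ / 2 := by
  have h1 : deriv (mzgaG L w) =ᶠ[𝓝 z] mzgaG1 L w := by
    filter_upwards [(mzgaGood_isOpen L hw).mem_nhds hz] with y hy
    exact mzga_deriv_G L hw hy
  rw [h1.deriv_eq]
  exact (mzga_hasDerivAt_G1 L hw hz.1 hz.2).deriv

/-- Key step: `G = ℘ (· + w)` on the good set. -/
theorem mzga_G_eqOn (L : PeriodPair) {w : ℂ} (hw : w ∉ L.lattice) :
    Set.EqOn (mzgaG L w) (fun z => ℘[L] (z + w)) (mzgaGood L w) := by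
  have hw0 : (0 : ℂ) + w ∉ L.lattice := by simpa using hw
  -- near `0`
  have hev : ∀ᶠ z in 𝓝[≠] (0 : ℂ), z ∈ mzgaGood L w ∧ mzgaG L w z = mzgaGt L w z := by
    have hc : ContinuousAt (fun z : ℂ => 1 + z ^ 2 * (℘[L - (0 : ℂ)] z - ℘[L] w)) 0 := by
      have := (L.analyticAt_weierstrassPExcept 0).continuousAt
      fun_prop
    have h1 : ∀ᶠ z in 𝓝[≠] (0 : ℂ), 1 + z ^ 2 * (℘[L - (0 : ℂ)] z - ℘[L] w) ≠ 0 :=
      (hc.eventually_ne (by simp)).filter_mono nhdsWithin_le_nhds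
    filter_upwards [h1, mzga_eventually_notMem L 0] with z hz1 hz2
    obtain ⟨h3, h4⟩ := mzga_G_eq_Gt L hz2 hz1
    exact ⟨⟨hz2, h3⟩, h4⟩
  have hev2 : ∀ᶠ z in 𝓝[≠] (0 : ℂ), ∀ᶠ y in 𝓝 z,
      y ∈ mzgaGood L w ∧ mzgaG L w y = mzgaGt L w y := by
    have h1 := (eventually_nhdsWithin_iff.mp hev).eventually_nhds
    have h2 : ∀ᶠ z in 𝓝[≠] (0 : ℂ), ∀ᶠ y in 𝓝 z, y ≠ 0 := by
      filter_upwards [self_mem_nhdsWithin] with z hz
      exact isOpen_compl_singleton.mem_nhds hz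
    filter_upwards [h1.filter_mono nhdsWithin_le_nhds, h2] with z hz1 hz2
    filter_upwards [hz1, hz2] with y hy1 hy2 using hy1 hy2
  have hGtode : ∀ᶠ z in 𝓝[≠] (0 : ℂ),
      deriv (deriv (mzgaGt L w)) z = 6 * mzgaGt L w z ^ 2 - L.g₂ / 2 := by
    filter_upwards [hev2] with z hz
    have hz' := hz.self_of_nhds
    have h1 : mzgaGt L w =ᶠ[𝓝 z] mzgaG L w := by
      filter_upwards [hz] with y hy using hy.2.symm
    rw [h1.deriv.deriv_eq, ← hz'.2]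
    exact mzga_deriv_deriv_G L hw hz'.1
  have hH : AnalyticAt ℂ (fun z => ℘[L] (z + w)) 0 := mzga_analyticAt_shift L w hw0
  have hHode : ∀ᶠ z in 𝓝[≠] (0 : ℂ),
      deriv (deriv (fun z => ℘[L] (z + w))) z = 6 * ℘[L] (z + w) ^ 2 - L.g₂ / 2 := by
    refine Filter.Eventually.filter_mono nhdsWithin_le_nhds ?_
    filter_upwards [mzga_eventually_shift_notMem L hw0] with z hz
    exact mzga_deriv_deriv_shift L w hz
  have hGtH : mzgaGt L w =ᶠ[𝓝 0] fun z => ℘[L] (z + w) := by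
    refine mzga_ode_unique (c := L.g₂ / 2) (mzga_analyticAt_Gt L w) hH hGtode hHode ?_ ?_
    · simp [mzga_Gt_zero]
    · rw [(mzga_hasDerivAt_Gt L w).deriv, mzga_deriv_shift]
      simp
  -- pick a base point
  have hev3 : ∀ᶠ z in 𝓝[≠] (0 : ℂ), z ∈ mzgaGood L w ∧
      mzgaG L w =ᶠ[𝓝 z] fun z => ℘[L] (z + w) := by
    have h1 := (hGtH.eventually_nhds).filter_mono (nhdsWithin_le_nhds (s := {(0 : ℂ)}ᶜ))
    filter_upwards [hev2, h1] with z hz1 hz2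
    refine ⟨hz1.self_of_nhds.1, ?_⟩
    filter_upwards [hz1, hz2] with y hy1 hy2
    rw [hy1.2]
    exact hy2
  obtain ⟨z₀, hz₀, hz₀'⟩ := hev3.exists
  have hGan : AnalyticOnNhd ℂ (mzgaG L w) (mzgaGood L w) := fun z hz => mzga_analyticAt_G L hz
  exact hGan.eqOn_of_preconnected_of_eventuallyEq
    (fun z hz => mzga_analyticAt_shift L w (mzgaGood_add_notMem L hw hz))
    (mzgaGood_isPreconnected L hw) hz₀ hz₀'

/-- Addition theorem for `℘`. -/
theorem mzga_weierstrassP_add (L : PeriodPair) {z w : ℂ} (hz : z ∉ L.lattice) (hw : w ∉ L.lattice)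
    (hne : ℘[L] z ≠ ℘[L] w) :
    ℘[L] (z + w) = ((℘'[L] z - ℘'[L] w) / (℘[L] z - ℘[L] w)) ^ 2 / 4 - ℘[L] z - ℘[L] w :=
  (mzga_G_eqOn L hw ⟨hz, hne⟩).symm

/-- Addition theorem for `℘'`. -/
theorem mzga_derivWeierstrassP_add (L : PeriodPair) {z w : ℂ} (hz : z ∉ L.lattice)
    (hw : w ∉ L.lattice) (hne : ℘[L] z ≠ ℘[L] w) :
    ℘'[L] (z + w) = -((℘'[L] z - ℘'[L] w) / (℘[L] z - ℘[L] w) * (℘[L] (z + w) - ℘[L] z)
      + ℘'[L] z) := by
  have hzG : z ∈ mzgaGood L w := ⟨hz, hne⟩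
  have h1 : mzgaG L w =ᶠ[𝓝 z] fun z => ℘[L] (z + w) := by
    filter_upwards [(mzgaGood_isOpen L hw).mem_nhds hzG] with y hy
    exact mzga_G_eqOn L hw hy
  have h2 := h1.deriv_eq
  rw [mzga_deriv_G L hw hzG, mzga_deriv_shift] at h2
  have h3 : ℘[L] (z + w) = mzgaG L w z := (mzga_G_eqOn L hw hzG).symm
  rw [h3]
  exact h2.symm

end Fermat.Agent.Mazur
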