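import Fermat.Agent.Lib.Mazur.G.An.Addition

/-!
# MAZUR (G), analysis chain AN6: the product formula `Δ(L') Π⁴ = Δ(L)^p`

For a cyclic superlattice `L' = L + ℤ z₀` of odd index `p`:
* (F2) `(℘(z + u) - e_u)(℘ z - e_u) = (e_u - e_v)(e_u - e_{u+v})` for half periods `u`, `v`;
* (F1) `∏_{m<p} (℘_L(z + m z₀) - e_u) = D_u (℘_{L'}(z) - ℘_{L'}(u))`;
* `Δ(L') (∏_{0<m<p} ℘'_L(m z₀))⁴ = Δ(L)^p`, `Δ = g₂³ - 27 g₃²`.

Pure Mathlib.
-/

open Filter Topology
open scoped PeriodPair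

namespace Fermat.Agent.Mazur

/-! ### Generalities on orders -/

/-- An analytic function vanishing to first order factors through `(z - z₀)²`. -/
theorem mzga_exists_sq_factor {f : ℂ → ℂ} {z₀ : ℂ} (hf : AnalyticAt ℂ f z₀) (h0 : f z₀ = 0)
    (h1 : deriv f z₀ = 0) :
    ∃ S : ℂ → ℂ, AnalyticAt ℂ S z₀ ∧ ∀ᶠ z in 𝓝 z₀, f z = (z - z₀) ^ 2 * S z := by
  have h2 : ((2 : ℕ) : ℕ∞) ≤ analyticOrderAt f z₀ := by
    rw [natCast_le_analyticOrderAt_iff_iteratedDeriv_eq_zero hf]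
    intro i hi
    interval_cases i
    · simpa using h0
    · simpa using h1
  obtain ⟨S, hS, hS'⟩ := (natCast_le_analyticOrderAt hf).mp h2
  exact ⟨S, hS, by simpa using hS'⟩

theorem mzga_two_le_order {f : ℂ → ℂ} {z₀ : ℂ} (hf : AnalyticAt ℂ f z₀) (h0 : f z₀ = 0)
    (h1 : deriv f z₀ = 0) : ((2 : ℤ) : WithTop ℤ) ≤ meromorphicOrderAt f z₀ := by
  have h2 : ((2 : ℕ) : ℕ∞) ≤ analyticOrderAt f z₀ := by
    rw [natCast_le_analyticOrderAt_iff_iteratedDeriv_eq_zero hf]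
    intro i hi
    interval_cases i
    · simpa using h0
    · simpa using h1
  rw [hf.meromorphicOrderAt_eq]
  cases h : analyticOrderAt f z₀ with
  | top => simp
  | coe n =>
    rw [h] at h2
    have : 2 ≤ n := by exact_mod_cast h2
    simp only [ENat.map_natCast]
    exact_mod_cast this

/-! ### Half periods -/

/-- `℘'` vanishes at half periods. -/
theorem mzga_derivWeierstrassP_half (L : PeriodPair) {u : ℂ} (hu2 : 2 * u ∈ L.lattice) :
    ℘'[L] u = 0 := by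
  have h1 := L.derivWeierstrassP_sub_coe u ⟨2 * u, hu2⟩
  have h2 : u - (2 * u) = -u := by ring
  simp only [h2, L.derivWeierstrassP_neg] at h1
  have : (2 : ℂ) * ℘'[L] u = 0 := by linear_combination -h1
  simpa using this

/-- Distinct half periods have distinct `℘`-values. -/
theorem mzga_weierstrassP_half_ne (L : PeriodPair) {u v : ℂ} (hu : u ∉ L.lattice)
    (hv : v ∉ L.lattice) (hv2 : 2 * v ∈ L.lattice) (huv : u - v ∉ L.lattice) :
    ℘[L] u ≠ ℘[L] v := by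
  rw [Ne, mzga_weierstrassP_eq_iff L hu hv, not_or]
  refine ⟨huv, fun h => huv ?_⟩
  have : u - v = u + v - 2 * v := by ring
  rw [this]; exact sub_mem h hv2

/-- Vieta for the Weierstrass cubic: three distinct roots determine `g₂`, `g₃`. -/
theorem mzga_cubic_vieta {g2 g3 e1 e2 e3 : ℂ} (h1 : 4 * e1 ^ 3 - g2 * e1 - g3 = 0)
    (h2 : 4 * e2 ^ 3 - g2 * e2 - g3 = 0) (h3 : 4 * e3 ^ 3 - g2 * e3 - g3 = 0)
    (h12 : e1 ≠ e2) (h13 : e1 ≠ e3) (h23 : e2 ≠ e3) :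
    e1 + e2 + e3 = 0 ∧ g2 = -4 * (e1 * e2 + e1 * e3 + e2 * e3) ∧ g3 = 4 * e1 * e2 * e3 := by
  have h12' : e1 - e2 ≠ 0 := sub_ne_zero.mpr h12
  have h13' : e1 - e3 ≠ 0 := sub_ne_zero.mpr h13
  have h23' : e2 - e3 ≠ 0 := sub_ne_zero.mpr h23
  have ha : 4 * (e1 ^ 2 + e1 * e2 + e2 ^ 2) = g2 := by
    apply mul_left_cancel₀ h12'
    linear_combination h1 - h2
  have hb : 4 * (e1 ^ 2 + e1 * e3 + e3 ^ 2) = g2 := by
    apply mul_left_cancel₀ h13'
    linear_combination h1 - h3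
  have hs : e1 + e2 + e3 = 0 := by
    apply mul_left_cancel₀ h23'
    linear_combination (ha - hb) / 4
  have he3 : e3 = -e1 - e2 := by linear_combination hs
  refine ⟨hs, ?_, ?_⟩
  · rw [← ha, he3]; ring
  · have : g3 = 4 * e1 ^ 3 - g2 * e1 := by linear_combination -h1
    rw [this, ← ha, he3]; ring

theorem mzga_cubic_disc {g2 g3 e1 e2 e3 : ℂ} (hs : e1 + e2 + e3 = 0)
    (hg2 : g2 = -4 * (e1 * e2 + e1 * e3 + e2 * e3)) (hg3 : g3 = 4 * e1 * e2 * e3) :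
    g2 ^ 3 - 27 * g3 ^ 2 = 16 * ((e1 - e2) * (e1 - e3) * (e2 - e3)) ^ 2 := by
  have he3 : e3 = -e1 - e2 := by linear_combination hs
  rw [hg2, hg3, he3]; ring

theorem mzga_cubic_factor {g2 g3 e1 e2 e3 : ℂ} (hs : e1 + e2 + e3 = 0)
    (hg2 : g2 = -4 * (e1 * e2 + e1 * e3 + e2 * e3)) (hg3 : g3 = 4 * e1 * e2 * e3) (x : ℂ) :
    4 * x ^ 3 - g2 * x - g3 = 4 * ((x - e1) * (x - e2) * (x - e3)) := by
  have he3 : e3 = -e1 - e2 := by linear_combination hs
  rw [hg2, hg3, he3]; ring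

/-- A triple of representatives of the nonzero classes of `(1/2)L / L`. -/
structure MzgaHalf (L : PeriodPair) (u : Fin 3 → ℂ) : Prop where
  notMem : ∀ i, u i ∉ L.lattice
  two_mem : ∀ i, 2 * u i ∈ L.lattice
  sub_notMem : ∀ i j, i ≠ j → u i - u j ∉ L.lattice
  add_sub_mem : ∀ i j k, i ≠ j → i ≠ k → j ≠ k → u i + u j - u k ∈ L.lattice

theorem MzgaHalf.root {L : PeriodPair} {u : Fin 3 → ℂ} (h : MzgaHalf L u) (i : Fin 3) :
    4 * ℘[L] (u i) ^ 3 - L.g₂ * ℘[L] (u i) - L.g₃ = 0 := by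
  have := L.derivWeierstrassP_sq (u i) (h.notMem i)
  rw [mzga_derivWeierstrassP_half L (h.two_mem i)] at this
  linear_combination -this

theorem MzgaHalf.ne {L : PeriodPair} {u : Fin 3 → ℂ} (h : MzgaHalf L u) {i j : Fin 3}
    (hij : i ≠ j) : ℘[L] (u i) ≠ ℘[L] (u j) :=
  mzga_weierstrassP_half_ne L (h.notMem i) (h.notMem j) (h.two_mem j) (h.sub_notMem i j hij)

theorem MzgaHalf.vieta {L : PeriodPair} {u : Fin 3 → ℂ} (h : MzgaHalf L u) :
    ℘[L] (u 0) + ℘[L] (u 1) + ℘[L] (u 2) = 0 ∧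
    L.g₂ = -4 * (℘[L] (u 0) * ℘[L] (u 1) + ℘[L] (u 0) * ℘[L] (u 2) + ℘[L] (u 1) * ℘[L] (u 2)) ∧
    L.g₃ = 4 * ℘[L] (u 0) * ℘[L] (u 1) * ℘[L] (u 2) :=
  mzga_cubic_vieta (h.root 0) (h.root 1) (h.root 2) (h.ne (by decide)) (h.ne (by decide))
    (h.ne (by decide))

theorem MzgaHalf.disc {L : PeriodPair} {u : Fin 3 → ℂ} (h : MzgaHalf L u) :
    L.g₂ ^ 3 - 27 * L.g₃ ^ 2 = 16 * ((℘[L] (u 0) - ℘[L] (u 1)) * (℘[L] (u 0) - ℘[L] (u 2)) *
      (℘[L] (u 1) - ℘[L] (u 2))) ^ 2 :=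
  mzga_cubic_disc h.vieta.1 h.vieta.2.1 h.vieta.2.2

theorem MzgaHalf.deriv_sq {L : PeriodPair} {u : Fin 3 → ℂ} (h : MzgaHalf L u) {z : ℂ}
    (hz : z ∉ L.lattice) :
    ℘'[L] z ^ 2 = 4 * ((℘[L] z - ℘[L] (u 0)) * (℘[L] z - ℘[L] (u 1)) * (℘[L] z - ℘[L] (u 2))) := by
  rw [L.derivWeierstrassP_sq z hz]
  exact mzga_cubic_factor h.vieta.1 h.vieta.2.1 h.vieta.2.2 _

/-- The standard half periods. -/
noncomputable def mzgaStdHalf (L : PeriodPair) : Fin 3 → ℂ :=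
  ![L.ω₁ / 2, L.ω₂ / 2, (L.ω₁ + L.ω₂) / 2]

theorem mzga_half_combo_notMem (L : PeriodPair) {a b : ℚ} (h : ¬ (a.den = 1 ∧ b.den = 1)) :
    (a : ℂ) * L.ω₁ + (b : ℂ) * L.ω₂ ∉ L.lattice :=
  fun hmem => h (PeriodPair.mul_ω₁_add_mul_ω₂_mem_lattice.mp hmem)

theorem mzgaStdHalf_spec (L : PeriodPair) : MzgaHalf L (mzgaStdHalf L) := by
  have key : ∀ a b : ℚ, ¬ (a.den = 1 ∧ b.den = 1) →
      (a : ℂ) * L.ω₁ + (b : ℂ) * L.ω₂ ∉ L.lattice := fun a b => mzga_half_combo_notMem L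
  have hm : ∀ a b : ℤ, (a : ℂ) * L.ω₁ + (b : ℂ) * L.ω₂ ∈ L.lattice := fun a b =>
    PeriodPair.mem_lattice.mpr ⟨a, b, rfl⟩
  have hhalf : ((1 / 2 : ℚ)).den ≠ 1 := by norm_num
  have hnhalf : ((-1 / 2 : ℚ)).den ≠ 1 := by norm_num
  refine ⟨?_, ?_, ?_, ?_⟩
  · intro i
    fin_cases i
    · have := key (1 / 2) 0 (by simp)
      convert this using 1; simp [mzgaStdHalf]; ring_nf
    · have := key 0 (1 / 2) (by simp)
      convert this using 1; simp [mzgaStdHalf]; ring_nf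
    · have := key (1 / 2) (1 / 2) (by simp)
      convert this using 1; simp [mzgaStdHalf]; ring_nf
  · intro i
    fin_cases i
    · have := hm 1 0
      convert this using 1; simp [mzgaStdHalf]; ring_nf
    · have := hm 0 1
      convert this using 1; simp [mzgaStdHalf]; ring_nf
    · have := hm 1 1
      convert this using 1; simp [mzgaStdHalf]; ring_nf
  · intro i j hij
    fin_cases i <;> fin_cases j <;> first | exact absurd rfl hij | skip
    · have := key (1 / 2) (-1 / 2) (by simp)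
      convert this using 1; simp [mzgaStdHalf]; ring_nf
    · have := key 0 (-1 / 2) (by simp [hnhalf])
      convert this using 1; simp [mzgaStdHalf]; ring_nf
    · have := key (-1 / 2) (1 / 2) (by simp)
      convert this using 1; simp [mzgaStdHalf]; ring_nf
    · have := key (-1 / 2) 0 (by simp [hnhalf])
      convert this using 1; simp [mzgaStdHalf]; ring_nf
    · have := key 0 (1 / 2) (by simp)
      convert this using 1; simp [mzgaStdHalf]; ring_nf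
    · have := key (1 / 2) 0 (by simp)
      convert this using 1; simp [mzgaStdHalf]; ring_nf
  · intro i j k hij hik hjk
    fin_cases i <;> fin_cases j <;> fin_cases k <;>
      first | exact absurd rfl hij | exact absurd rfl hik | exact absurd rfl hjk | skip
    · have := hm 0 0
      convert this using 1; simp [mzgaStdHalf]; ring_nf
    · have := hm 1 0
      convert this using 1; simp [mzgaStdHalf]; ring_nf
    · have := hm 0 0
      convert this using 1; simp [mzgaStdHalf]; ring_nf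
    · have := hm 0 1
      convert this using 1; simp [mzgaStdHalf]; ring_nf
    · have := hm 1 0
      convert this using 1; simp [mzgaStdHalf]; ring_nf
    · have := hm 0 1
      convert this using 1; simp [mzgaStdHalf]; ring_nf



theorem mzga_meromorphicAt_shift (L : PeriodPair) (a z : ℂ) :
    MeromorphicAt (fun y => ℘[L] (y + a)) z :=
  meromorphicAt_fun_comp_add_const_iff_meromorphicAt.mpr (L.meromorphic_weierstrassP (z + a))

theorem mzga_nonneg_of_two_le {a b : WithTop ℤ} (ha : ((2 : ℤ) : WithTop ℤ) ≤ a) (hb : b = -2) :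
    0 ≤ a + b := by
  rw [hb, mzga_neg_two_eq]
  calc (0 : WithTop ℤ) = ((2 : ℤ) : WithTop ℤ) + ((-2 : ℤ) : WithTop ℤ) := by
        rw [← WithTop.coe_add]; norm_num
    _ ≤ a + ((-2 : ℤ) : WithTop ℤ) := by gcongr

/-- (F2): `(℘(z + u) - e_u)(℘ z - e_u) = (e_u - e_v)(e_u - e_{u+v})` for half periods `u`, `v`. -/
theorem mzga_half_period_mul (L : PeriodPair) {u v z : ℂ} (hu : u ∉ L.lattice)
    (hu2 : 2 * u ∈ L.lattice) (hv : v ∉ L.lattice) (hv2 : 2 * v ∈ L.lattice)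
    (huv : u - v ∉ L.lattice) (hz : z ∉ L.lattice) (hzu : z + u ∉ L.lattice) :
    (℘[L] (z + u) - ℘[L] u) * (℘[L] z - ℘[L] u) =
      (℘[L] u - ℘[L] v) * (℘[L] u - ℘[L] (u + v)) := by
  set e := ℘[L] u with he
  set P : ℂ → ℂ := fun z => (℘[L] (z + u) - e) * (℘[L] z - e) with hP
  have hmer : ∀ z, MeromorphicAt P z := fun z =>
    ((mzga_meromorphicAt_shift L u z).sub (MeromorphicAt.const e z)).mul
      ((L.meromorphic_weierstrassP z).sub (MeromorphicAt.const e z))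
  have hper : ∀ l ∈ L.lattice, ∀ z, P (z + l) = P z := by
    intro l hl z
    simp only [hP]
    rw [add_right_comm, L.weierstrassP_add_coe (z + u) ⟨l, hl⟩, L.weierstrassP_add_coe z ⟨l, hl⟩]
  have hperu : ∀ z, P (z + u) = P z := by
    intro z
    simp only [hP]
    have : z + u + u = z + (⟨2 * u, hu2⟩ : L.lattice) := by simp; ring
    rw [this, L.weierstrassP_add_coe, mul_comm]
  have han : ∀ z, z ∉ L.lattice → z + u ∉ L.lattice → AnalyticAt ℂ P z := by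
    intro z h1 h2
    have a1 := mzga_analyticAt_shift L u h2
    have a2 := mzga_analyticAt_weierstrassP L h1
    simp only [hP]
    fun_prop
  have hordA : ∀ z, z ∈ L.lattice → 0 ≤ meromorphicOrderAt P z := by
    intro z hzL
    have hzu' : z + u ∉ L.lattice := fun h => hu (by simpa using sub_mem h hzL)
    have h1 : meromorphicOrderAt (fun y => ℘[L] y - e) z = -2 :=
      mzga_order_weierstrassP_sub L e hzL
    have hval : ℘[L] (z + u) = e := by
      rw [add_comm]; exact L.weierstrassP_add_coe u ⟨z, hzL⟩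
    have hder : ℘'[L] (z + u) = 0 := by
      rw [add_comm, L.derivWeierstrassP_add_coe u ⟨z, hzL⟩]
      exact mzga_derivWeierstrassP_half L hu2
    have h2 : ((2 : ℤ) : WithTop ℤ) ≤ meromorphicOrderAt (fun y => ℘[L] (y + u) - e) z := by
      refine mzga_two_le_order ((mzga_analyticAt_shift L u hzu').sub analyticAt_const) ?_ ?_
      · simp [hval]
      · rw [deriv_sub_const, mzga_deriv_shift]
        exact hder
    have hmul : meromorphicOrderAt P z = meromorphicOrderAt (fun y => ℘[L] (y + u) - e) z +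
        meromorphicOrderAt (fun y => ℘[L] y - e) z :=
      meromorphicOrderAt_mul ((mzga_meromorphicAt_shift L u z).sub (MeromorphicAt.const e z))
        ((L.meromorphic_weierstrassP z).sub (MeromorphicAt.const e z))
    rw [hmul]
    exact mzga_nonneg_of_two_le h2 h1
  have hord : ∀ z, 0 ≤ meromorphicOrderAt P z := by
    intro z
    by_cases h1 : z ∈ L.lattice
    · exact hordA z h1
    by_cases h2 : z + u ∈ L.lattice
    · rw [← mzga_order_periodic hperu z]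
      exact hordA _ h2
    · exact (han z h1 h2).meromorphicOrderAt_nonneg
  obtain ⟨c, hc⟩ := mzga_liouville L hmer hper hord
  have hvu : v + u ∉ L.lattice := by
    intro h
    apply huv
    have : u - v = v + u - 2 * v := by ring
    rw [this]; exact sub_mem h hv2
  have e1 : P z = c := hc z (han z hz hzu).continuousAt
  have e2 : P v = c := hc v (han v hv hvu).continuousAt
  have : P z = P v := e1.trans e2.symm
  simp only [hP] at this
  rw [this, add_comm v u]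
  ring



/-- A cyclic superlattice `L' = L + ℤ z₀` of odd index `p`. -/
structure MzgaSuper (L L' : PeriodPair) (p : ℕ) (z₀ : ℂ) : Prop where
  odd : Odd p
  mem_iff : ∀ x, x ∈ L'.lattice ↔ ∃ m : ℤ, ∃ l ∈ L.lattice, x = l + m * z₀
  notMem : ∀ m : ℕ, 0 < m → m < p → (m : ℂ) * z₀ ∉ L.lattice
  p_mem : (p : ℂ) * z₀ ∈ L.lattice

namespace MzgaSuper

variable {L L' : PeriodPair} {p : ℕ} {z₀ : ℂ}

theorem pos (h : MzgaSuper L L' p z₀) : 0 < p := h.odd.pos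

theorem le (h : MzgaSuper L L' p z₀) {x : ℂ} (hx : x ∈ L.lattice) : x ∈ L'.lattice :=
  (h.mem_iff x).mpr ⟨0, x, hx, by simp⟩

theorem int_mul_mem (h : MzgaSuper L L' p z₀) (m : ℤ) : (m : ℂ) * z₀ ∈ L'.lattice :=
  (h.mem_iff _).mpr ⟨m, 0, zero_mem _, by simp⟩

theorem nat_mul_mem (h : MzgaSuper L L' p z₀) (m : ℕ) : (m : ℂ) * z₀ ∈ L'.lattice := by
  simpa using h.int_mul_mem (m : ℤ)

theorem int_mul_lattice (L : PeriodPair) (k : ℤ) {x : ℂ} (hx : x ∈ L.lattice) :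
    (k : ℂ) * x ∈ L.lattice := by
  have := L.lattice.smul_mem k hx
  simpa [zsmul_eq_mul] using this

theorem p_mul_mem (h : MzgaSuper L L' p z₀) {x : ℂ} (hx : x ∈ L'.lattice) :
    (p : ℂ) * x ∈ L.lattice := by
  obtain ⟨m, l, hl, rfl⟩ := (h.mem_iff x).mp hx
  have h1 : (p : ℂ) * (l + m * z₀) = ((p : ℤ) : ℂ) * l + (m : ℂ) * ((p : ℂ) * z₀) := by
    push_cast; ring
  rw [h1]
  exact add_mem (int_mul_lattice L _ hl) (int_mul_lattice L _ h.p_mem)

/-- `L'/L` has odd order, so it has no `2`-torsion. -/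
theorem mem_of_two_mul_mem (h : MzgaSuper L L' p z₀) {x : ℂ} (hx : x ∈ L'.lattice)
    (h2 : 2 * x ∈ L.lattice) : x ∈ L.lattice := by
  obtain ⟨k, hk⟩ := h.odd
  have h1 : x = (p : ℂ) * x - ((k : ℤ) : ℂ) * (2 * x) := by
    rw [hk]; push_cast; ring
  rw [h1]
  exact sub_mem (h.p_mul_mem hx) (int_mul_lattice L _ h2)

theorem half_notMem (h : MzgaSuper L L' p z₀) {u : ℂ} (hu : u ∉ L.lattice)
    (hu2 : 2 * u ∈ L.lattice) : u ∉ L'.lattice :=
  fun hmem => hu (h.mem_of_two_mul_mem hmem hu2)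

theorem add_mul_notMem (h : MzgaSuper L L' p z₀) {z : ℂ} (hz : z ∉ L'.lattice) (m : ℕ) :
    z + (m : ℂ) * z₀ ∉ L.lattice := by
  intro hmem
  apply hz
  have : z = (z + (m : ℂ) * z₀) - (m : ℂ) * z₀ := by ring
  rw [this]
  exact sub_mem (h.le hmem) (h.nat_mul_mem m)

end MzgaSuper

/-- `F(z) = ∏_{m < p} (℘(z + m z₀) - e)`. -/
noncomputable def mzgaF (L : PeriodPair) (p : ℕ) (z₀ e : ℂ) (z : ℂ) : ℂ :=
  ∏ m ∈ Finset.range p, (℘[L] (z + (m : ℂ) * z₀) - e)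

/-- `R(z) = ∏_{0 < m < p} (℘(z + m z₀) - e)`. -/
noncomputable def mzgaR (L : PeriodPair) (p : ℕ) (z₀ e : ℂ) (z : ℂ) : ℂ :=
  ∏ m ∈ Finset.Ico 1 p, (℘[L] (z + (m : ℂ) * z₀) - e)

theorem mzgaF_eq (L : PeriodPair) {p : ℕ} (hp : 0 < p) (z₀ e z : ℂ) :
    mzgaF L p z₀ e z = (℘[L] z - e) * mzgaR L p z₀ e z := by
  unfold mzgaF mzgaR
  rw [Finset.prod_range_eq_mul_Ico _ hp]
  simp

section
variable {L L' : PeriodPair} {p : ℕ} {z₀ : ℂ}

theorem mzgaF_add_lattice (L : PeriodPair) (p : ℕ) (z₀ e : ℂ) {l : ℂ} (hl : l ∈ L.lattice)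
    (z : ℂ) : mzgaF L p z₀ e (z + l) = mzgaF L p z₀ e z := by
  unfold mzgaF
  refine Finset.prod_congr rfl fun m _ => ?_
  rw [add_right_comm, L.weierstrassP_add_coe _ ⟨l, hl⟩]

theorem mzgaF_add_z₀ (h : MzgaSuper L L' p z₀) (e z : ℂ) :
    mzgaF L p z₀ e (z + z₀) = mzgaF L p z₀ e z := by
  set g : ℕ → ℂ := fun m => ℘[L] (z + (m : ℂ) * z₀) - e with hg
  have h1 : mzgaF L p z₀ e (z + z₀) = ∏ m ∈ Finset.Ico 0 p, g (m + 1) := by
    unfold mzgaF
    rw [Finset.range_eq_Ico]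
    refine Finset.prod_congr rfl fun m _ => ?_
    simp only [hg]
    congr 2
    push_cast; ring
  have h2 : mzgaF L p z₀ e z = g 0 * ∏ m ∈ Finset.Ico 1 p, g m := by
    unfold mzgaF
    exact Finset.prod_range_eq_mul_Ico _ h.pos
  have hgp : g p = g 0 := by
    simp only [hg]
    have := L.weierstrassP_add_coe z ⟨(p : ℂ) * z₀, h.p_mem⟩
    simp only at this
    rw [this]; simp
  rw [h1, h2, Finset.prod_Ico_add' g 0 p 1, zero_add,
    Finset.prod_Ico_succ_top (Nat.one_le_iff_ne_zero.mpr h.pos.ne') g, hgp, mul_comm]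

theorem mzgaF_add_int (h : MzgaSuper L L' p z₀) (e : ℂ) (m : ℤ) (z : ℂ) :
    mzgaF L p z₀ e (z + (m : ℂ) * z₀) = mzgaF L p z₀ e z := by
  induction m using Int.induction_on generalizing z with
  | zero => simp
  | succ n ih =>
    have : z + ((n + 1 : ℤ) : ℂ) * z₀ = (z + (n : ℂ) * z₀) + z₀ := by push_cast; ring
    rw [this, mzgaF_add_z₀ h]
    simpa using ih z
  | pred n ih =>
    have h1 := mzgaF_add_z₀ h e (z + ((-(n : ℤ) - 1 : ℤ) : ℂ) * z₀)
    have : z + ((-(n : ℤ) - 1 : ℤ) : ℂ) * z₀ + z₀ = z + ((-(n : ℤ) : ℤ) : ℂ) * z₀ := by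
      push_cast; ring
    rw [this] at h1
    rw [← h1]
    exact ih z

theorem mzgaF_add_super (h : MzgaSuper L L' p z₀) (e : ℂ) {l' : ℂ} (hl' : l' ∈ L'.lattice)
    (z : ℂ) : mzgaF L p z₀ e (z + l') = mzgaF L p z₀ e z := by
  obtain ⟨m, l, hl, rfl⟩ := (h.mem_iff l').mp hl'
  have : z + (l + (m : ℂ) * z₀) = (z + (m : ℂ) * z₀) + l := by ring
  rw [this, mzgaF_add_lattice L p z₀ e hl, mzgaF_add_int h]

theorem mzgaR_neg (h : MzgaSuper L L' p z₀) (e z : ℂ) :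
    mzgaR L p z₀ e (-z) = mzgaR L p z₀ e z := by
  unfold mzgaR
  have h1 : ∀ m ∈ Finset.Ico 1 p, ℘[L] (-z + (m : ℂ) * z₀) - e =
      ℘[L] (z + ((p - m : ℕ) : ℂ) * z₀) - e := by
    intro m hm
    have hmp : m ≤ p := (Finset.mem_Ico.mp hm).2.le
    have e1 : -z + (m : ℂ) * z₀ = -(z + ((p - m : ℕ) : ℂ) * z₀ -
        ((⟨(p : ℂ) * z₀, h.p_mem⟩ : L.lattice) : ℂ)) := by
      rw [Nat.cast_sub hmp]; simp; ring
    rw [e1, L.weierstrassP_neg, L.weierstrassP_sub_coe]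
  rw [Finset.prod_congr rfl h1]
  have := Finset.prod_Ico_reflect (fun j => ℘[L] (z + (j : ℂ) * z₀) - e) 1
    (m := p) (n := p) (Nat.le_succ p)
  simpa using this

theorem mzga_analyticAt_R (L : PeriodPair) (p : ℕ) (z₀ e : ℂ) {z : ℂ}
    (hz : ∀ m ∈ Finset.Ico 1 p, z + (m : ℂ) * z₀ ∉ L.lattice) :
    AnalyticAt ℂ (mzgaR L p z₀ e) z := by
  unfold mzgaR
  refine Finset.analyticAt_fun_prod _ fun m hm => ?_
  exact (mzga_analyticAt_shift L _ (hz m hm)).sub analyticAt_const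

theorem mzga_analyticAt_R_zero (h : MzgaSuper L L' p z₀) (e : ℂ) :
    AnalyticAt ℂ (mzgaR L p z₀ e) 0 := by
  refine mzga_analyticAt_R L p z₀ e fun m hm => ?_
  have := Finset.mem_Ico.mp hm
  simpa using h.notMem m this.1 this.2

theorem mzga_deriv_R_zero (h : MzgaSuper L L' p z₀) (e : ℂ) :
    deriv (mzgaR L p z₀ e) 0 = 0 := by
  have h1 : (fun z => mzgaR L p z₀ e (-z)) = mzgaR L p z₀ e := funext (mzgaR_neg h e)
  have h2 := deriv_comp_neg (f := mzgaR L p z₀ e) (x := (0 : ℂ))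
  rw [h1, neg_zero] at h2
  have : (2 : ℂ) * deriv (mzgaR L p z₀ e) 0 = 0 := by linear_combination h2
  simpa using this

/-- (F1): `∏_{m<p} (℘_L(z + m z₀) - e_u) = D_u (℘_{L'}(z) - ℘_{L'}(u))`. -/
theorem mzga_prod_shift (h : MzgaSuper L L' p z₀) {u : ℂ} (hu : u ∉ L.lattice)
    (hu2 : 2 * u ∈ L.lattice) {z : ℂ} (hz : z ∉ L'.lattice) :
    mzgaF L p z₀ (℘[L] u) z = mzgaR L p z₀ (℘[L] u) 0 * (℘[L'] z - ℘[L'] u) := by
  set e := ℘[L] u with he
  set D := mzgaR L p z₀ e 0 with hD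
  set T : ℂ → ℂ := fun z => mzgaF L p z₀ e z - D * ℘[L'] z with hT
  have hFmer : ∀ z, MeromorphicAt (mzgaF L p z₀ e) z := by
    intro z
    unfold mzgaF
    have : (fun z => ∏ m ∈ Finset.range p, (℘[L] (z + (m : ℂ) * z₀) - e)) =
        ∏ m ∈ Finset.range p, fun z => (℘[L] (z + (m : ℂ) * z₀) - e) := by
      funext z; simp
    rw [this]
    refine MeromorphicAt.prod fun m _ => ?_
    exact (meromorphicAt_fun_comp_add_const_iff_meromorphicAt.mpr
      (L.meromorphic_weierstrassP _)).sub (MeromorphicAt.const e z)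
  have hmer : ∀ z, MeromorphicAt T z := fun z =>
    (hFmer z).sub ((MeromorphicAt.const D z).mul (L'.meromorphic_weierstrassP z))
  have hper : ∀ l ∈ L'.lattice, ∀ z, T (z + l) = T z := by
    intro l hl z
    simp only [hT]
    rw [mzgaF_add_super h e hl, L'.weierstrassP_add_coe z ⟨l, hl⟩]
  have hFan : ∀ z, z ∉ L'.lattice → AnalyticAt ℂ (mzgaF L p z₀ e) z := by
    intro z hz
    unfold mzgaF
    refine Finset.analyticAt_fun_prod _ fun m _ => ?_
    exact (mzga_analyticAt_shift L _ (h.add_mul_notMem hz m)).sub analyticAt_const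
  have han : ∀ z, z ∉ L'.lattice → AnalyticAt ℂ T z := fun z hz =>
    (hFan z hz).sub (analyticAt_const.mul (mzga_analyticAt_weierstrassP L' hz))
  -- order at `0`
  have hord0 : 0 ≤ meromorphicOrderAt T 0 := by
    have hRan := mzga_analyticAt_R_zero h e
    obtain ⟨S, hS, hS'⟩ := mzga_exists_sq_factor (f := fun z => mzgaR L p z₀ e z - D)
      (hRan.sub analyticAt_const) (by simp [hD]) (by
        rw [deriv_sub_const]; exact mzga_deriv_R_zero h e)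
    have hA : AnalyticAt ℂ (fun z => (℘[L - (0 : ℂ)] z - e) * mzgaR L p z₀ e z -
        D * ℘[L' - (0 : ℂ)] z + S z) 0 := by
      have a1 := L.analyticAt_weierstrassPExcept 0
      have a2 := L'.analyticAt_weierstrassPExcept 0
      fun_prop
    have hcongr : T =ᶠ[𝓝[≠] 0] fun z => (℘[L - (0 : ℂ)] z - e) * mzgaR L p z₀ e z -
        D * ℘[L' - (0 : ℂ)] z + S z := by
      filter_upwards [hS'.filter_mono nhdsWithin_le_nhds, self_mem_nhdsWithin] with z hz1 hz2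
      have hz0 : z ≠ 0 := hz2
      simp only [hT]
      rw [mzgaF_eq L h.pos, mzga_except_zero, mzga_except_zero]
      have : mzgaR L p z₀ e z = D + z ^ 2 * S z := by
        have := hz1; simp only [sub_zero] at this; linear_combination this
      rw [this]
      field_simp
      ring
    rw [meromorphicOrderAt_congr hcongr]
    exact hA.meromorphicOrderAt_nonneg
  have hord : ∀ z, 0 ≤ meromorphicOrderAt T z := by
    intro z
    by_cases hz : z ∈ L'.lattice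
    · have := mzga_order_periodic (f := T) (w := z) (hper z hz) 0
      rw [zero_add] at this
      rw [this]; exact hord0
    · exact (han z hz).meromorphicOrderAt_nonneg
  obtain ⟨c, hc⟩ := mzga_liouville L' hmer hper hord
  have huL' : u ∉ L'.lattice := h.half_notMem hu hu2
  have e1 : T z = c := hc z (han z hz).continuousAt
  have e2 : T u = c := hc u (han u huL').continuousAt
  have hFu : mzgaF L p z₀ e u = 0 := by
    rw [mzgaF_eq L h.pos]; simp [he]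
  have : T z = T u := e1.trans e2.symm
  simp only [hT, hFu] at this
  linear_combination this

end


/-! ### The product formula -/

section
variable {L L' : PeriodPair} {p : ℕ} {z₀ : ℂ}

/-- Half periods of `L` remain half periods of an odd-index superlattice. -/
theorem MzgaSuper.half (h : MzgaSuper L L' p z₀) {u : Fin 3 → ℂ} (hu : MzgaHalf L u) :
    MzgaHalf L' u where
  notMem i := h.half_notMem (hu.notMem i) (hu.two_mem i)
  two_mem i := h.le (hu.two_mem i)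
  sub_notMem i j hij hmem := by
    refine hu.sub_notMem i j hij (h.mem_of_two_mul_mem hmem ?_)
    have : 2 * (u i - u j) = 2 * u i - 2 * u j := by ring
    rw [this]; exact sub_mem (hu.two_mem i) (hu.two_mem j)
  add_sub_mem i j k hij hik hjk := h.le (hu.add_sub_mem i j k hij hik hjk)

theorem MzgaSuper.mul_notMem_half (h : MzgaSuper L L' p z₀) {u : ℂ} (hu2 : 2 * u ∈ L.lattice)
    {m : ℕ} (hm0 : 0 < m) (hmp : m < p) :
    (m : ℂ) * z₀ - u ∉ L.lattice ∧ (m : ℂ) * z₀ + u ∉ L.lattice := by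
  have key : 2 * ((m : ℂ) * z₀) ∉ L.lattice := fun hmem =>
    h.notMem m hm0 hmp (h.mem_of_two_mul_mem (h.nat_mul_mem m) hmem)
  constructor
  · intro hmem
    apply key
    have : 2 * ((m : ℂ) * z₀) = ((2 : ℤ) : ℂ) * ((m : ℂ) * z₀ - u) + 2 * u := by push_cast; ring
    rw [this]; exact add_mem (MzgaSuper.int_mul_lattice L _ hmem) hu2
  · intro hmem
    apply key
    have : 2 * ((m : ℂ) * z₀) = ((2 : ℤ) : ℂ) * ((m : ℂ) * z₀ + u) - 2 * u := by push_cast; ring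
    rw [this]; exact sub_mem (MzgaSuper.int_mul_lattice L _ hmem) hu2

theorem MzgaSuper.weierstrassP_mul_ne (h : MzgaSuper L L' p z₀) {u : ℂ} (hu : u ∉ L.lattice)
    (hu2 : 2 * u ∈ L.lattice) {m : ℕ} (hm0 : 0 < m) (hmp : m < p) :
    ℘[L] ((m : ℂ) * z₀) - ℘[L] u ≠ 0 := by
  rw [sub_ne_zero, Ne, mzga_weierstrassP_eq_iff L (h.notMem m hm0 hmp) hu, not_or]
  exact h.mul_notMem_half hu2 hm0 hmp

theorem mzgaR_zero_eq (L : PeriodPair) (p : ℕ) (z₀ e : ℂ) :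
    mzgaR L p z₀ e 0 = ∏ m ∈ Finset.Ico 1 p, (℘[L] ((m : ℂ) * z₀) - e) := by
  unfold mzgaR; simp

theorem MzgaSuper.R_zero_ne (h : MzgaSuper L L' p z₀) {u : ℂ} (hu : u ∉ L.lattice)
    (hu2 : 2 * u ∈ L.lattice) : mzgaR L p z₀ (℘[L] u) 0 ≠ 0 := by
  rw [mzgaR_zero_eq, Finset.prod_ne_zero_iff]
  intro m hm
  have := Finset.mem_Ico.mp hm
  exact h.weierstrassP_mul_ne hu hu2 this.1 this.2

/-- The key relation `(ẽ_i - ẽ_k) D_i D_k = (e_i - e_k)^p D_j`. -/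
theorem MzgaSuper.key_rel (h : MzgaSuper L L' p z₀) {u : Fin 3 → ℂ} (hu : MzgaHalf L u)
    {i j k : Fin 3} (hij : i ≠ j) (hik : i ≠ k) (hjk : j ≠ k) :
    (℘[L'] (u i) - ℘[L'] (u k)) * mzgaR L p z₀ (℘[L] (u i)) 0 * mzgaR L p z₀ (℘[L] (u k)) 0 =
      (℘[L] (u i) - ℘[L] (u k)) ^ p * mzgaR L p z₀ (℘[L] (u j)) 0 := by
  have hF1 := mzga_prod_shift h (hu.notMem k) (hu.two_mem k)
    (h.half_notMem (hu.notMem i) (hu.two_mem i))
  rw [mzgaF_eq L h.pos] at hF1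
  -- the factors with `m ≥ 1`
  have hfac : ∀ m ∈ Finset.Ico 1 p,
      (℘[L] (u i + (m : ℂ) * z₀) - ℘[L] (u k)) * (℘[L] ((m : ℂ) * z₀) - ℘[L] (u i)) =
        (℘[L] (u i) - ℘[L] (u k)) * (℘[L] ((m : ℂ) * z₀) - ℘[L] (u j)) := by
    intro m hm
    have hm' := Finset.mem_Ico.mp hm
    have hmz := h.notMem m hm'.1 hm'.2
    have hmu := (h.mul_notMem_half (hu.two_mem i) hm'.1 hm'.2).2
    have hF2 := mzga_half_period_mul L (hu.notMem i) (hu.two_mem i) (hu.notMem k) (hu.two_mem k)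
      (hu.sub_notMem i k hik) hmz hmu
    have hsum : ℘[L] (u i + u k) = ℘[L] (u j) := by
      have := L.weierstrassP_sub_coe (u i + u k) ⟨_, hu.add_sub_mem i k j hik hij hjk.symm⟩
      simp only [sub_sub_cancel] at this
      exact this.symm
    rw [hsum] at hF2
    rw [add_comm (u i)]
    linear_combination hF2
  have hprod : mzgaR L p z₀ (℘[L] (u k)) (u i) * mzgaR L p z₀ (℘[L] (u i)) 0 =
      (℘[L] (u i) - ℘[L] (u k)) ^ (p - 1) * mzgaR L p z₀ (℘[L] (u j)) 0 := by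
    rw [mzgaR_zero_eq, mzgaR_zero_eq]
    unfold mzgaR
    rw [← Finset.prod_mul_distrib, Finset.prod_congr rfl hfac, Finset.prod_mul_distrib,
      Finset.prod_const]
    simp
  have hp : p = (p - 1) + 1 := (Nat.sub_add_cancel h.pos).symm
  have hpow : (℘[L] (u i) - ℘[L] (u k)) ^ p =
      (℘[L] (u i) - ℘[L] (u k)) ^ (p - 1) * (℘[L] (u i) - ℘[L] (u k)) := by
    conv_lhs => rw [hp, pow_succ]
  rw [hpow]
  linear_combination (-(mzgaR L p z₀ (℘[L] (u i)) 0)) * hF1 +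
    (℘[L] (u i) - ℘[L] (u k)) * hprod

/-- `Π² = 4^(p-1) D₀ D₁ D₂`. -/
theorem MzgaSuper.prod_deriv_sq (h : MzgaSuper L L' p z₀) {u : Fin 3 → ℂ} (hu : MzgaHalf L u) :
    (∏ m ∈ Finset.Ico 1 p, ℘'[L] ((m : ℂ) * z₀)) ^ 2 =
      4 ^ (p - 1) * (mzgaR L p z₀ (℘[L] (u 0)) 0 * mzgaR L p z₀ (℘[L] (u 1)) 0 *
        mzgaR L p z₀ (℘[L] (u 2)) 0) := by
  rw [← Finset.prod_pow, mzgaR_zero_eq, mzgaR_zero_eq, mzgaR_zero_eq,
    ← Finset.prod_mul_distrib, ← Finset.prod_mul_distrib]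
  have : ∀ m ∈ Finset.Ico 1 p, ℘'[L] ((m : ℂ) * z₀) ^ 2 =
      4 * ((℘[L] ((m : ℂ) * z₀) - ℘[L] (u 0)) * (℘[L] ((m : ℂ) * z₀) - ℘[L] (u 1)) *
        (℘[L] ((m : ℂ) * z₀) - ℘[L] (u 2))) := by
    intro m hm
    have hm' := Finset.mem_Ico.mp hm
    exact hu.deriv_sq (h.notMem m hm'.1 hm'.2)
  rw [Finset.prod_congr rfl this, Finset.prod_mul_distrib, Finset.prod_const]
  simp

/-- Product formula, structured form. -/
theorem MzgaSuper.product_formula (h : MzgaSuper L L' p z₀) :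
    (L'.g₂ ^ 3 - 27 * L'.g₃ ^ 2) * (∏ m ∈ Finset.Ico 1 p, ℘'[L] ((m : ℂ) * z₀)) ^ 4 =
      (L.g₂ ^ 3 - 27 * L.g₃ ^ 2) ^ p := by
  have hu := mzgaStdHalf_spec L
  have hu' := h.half hu
  set u := mzgaStdHalf L with hudef
  set D0 := mzgaR L p z₀ (℘[L] (u 0)) 0 with hD0
  set D1 := mzgaR L p z₀ (℘[L] (u 1)) 0 with hD1
  set D2 := mzgaR L p z₀ (℘[L] (u 2)) 0 with hD2
  have hD0ne : D0 ≠ 0 := h.R_zero_ne (hu.notMem 0) (hu.two_mem 0)
  have hD1ne : D1 ≠ 0 := h.R_zero_ne (hu.notMem 1) (hu.two_mem 1)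
  have hD2ne : D2 ≠ 0 := h.R_zero_ne (hu.notMem 2) (hu.two_mem 2)
  have r01 := h.key_rel hu (i := 0) (j := 2) (k := 1) (by decide) (by decide) (by decide)
  have r02 := h.key_rel hu (i := 0) (j := 1) (k := 2) (by decide) (by decide) (by decide)
  have r12 := h.key_rel hu (i := 1) (j := 0) (k := 2) (by decide) (by decide) (by decide)
  rw [← hD0, ← hD1, ← hD2] at r01 r02 r12
  have hPi := h.prod_deriv_sq hu
  rw [← hD0, ← hD1, ← hD2] at hPi
  set A := (℘[L'] (u 0) - ℘[L'] (u 1)) * (℘[L'] (u 0) - ℘[L'] (u 2)) *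
    (℘[L'] (u 1) - ℘[L'] (u 2)) with hA
  set B := (℘[L] (u 0) - ℘[L] (u 1)) * (℘[L] (u 0) - ℘[L] (u 2)) *
    (℘[L] (u 1) - ℘[L] (u 2)) with hB
  have hAB : A * (D0 * D1 * D2) = B ^ p := by
    have hne : D0 * D1 * D2 ≠ 0 := mul_ne_zero (mul_ne_zero hD0ne hD1ne) hD2ne
    apply mul_right_cancel₀ hne
    rw [hB, mul_pow, mul_pow, hA]
    linear_combination
      ((℘[L'] (u 0) - ℘[L'] (u 2)) * D0 * D2 * ((℘[L'] (u 1) - ℘[L'] (u 2)) * D1 * D2)) * r01 +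
      ((℘[L] (u 0) - ℘[L] (u 1)) ^ p * D2 * ((℘[L'] (u 1) - ℘[L'] (u 2)) * D1 * D2)) * r02 +
      ((℘[L] (u 0) - ℘[L] (u 1)) ^ p * D2 * ((℘[L] (u 0) - ℘[L] (u 2)) ^ p * D1)) * r12
  rw [hu'.disc, hu.disc, ← hA, ← hB]
  have h4 : (∏ m ∈ Finset.Ico 1 p, ℘'[L] ((m : ℂ) * z₀)) ^ 4 =
      ((∏ m ∈ Finset.Ico 1 p, ℘'[L] ((m : ℂ) * z₀)) ^ 2) ^ 2 := by ring
  rw [h4, hPi]
  have hp : p = (p - 1) + 1 := (Nat.sub_add_cancel h.pos).symm
  have h16 : (16 : ℂ) ^ p = 16 * (4 ^ (p - 1)) ^ 2 := by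
    conv_lhs => rw [hp, pow_succ]
    rw [← pow_mul, mul_comm (p - 1) 2, pow_mul]
    norm_num
    ring
  have hfin : ∀ b : ℂ, (16 : ℂ) ^ p * (b ^ p) ^ 2 = (16 * b ^ 2) ^ p := by
    intro b
    rw [mul_pow, ← pow_mul, ← pow_mul, mul_comm p 2]
  calc 16 * A ^ 2 * (4 ^ (p - 1) * (D0 * D1 * D2)) ^ 2
      = 16 * (4 ^ (p - 1)) ^ 2 * (A * (D0 * D1 * D2)) ^ 2 := by ring
    _ = 16 ^ p * (B ^ p) ^ 2 := by rw [hAB, h16]
    _ = (16 * B ^ 2) ^ p := hfin B

end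

/-- Product formula `Δ(L') Π⁴ = Δ(L)^p` for a cyclic superlattice of odd index `p`. -/
theorem mzga_product_formula (L L' : PeriodPair) {p : ℕ} (hp : Odd p) (z₀ : ℂ)
    (hL' : ∀ x, x ∈ L'.lattice ↔ ∃ m : ℤ, ∃ l ∈ L.lattice, x = l + m * z₀)
    (hz₀ : ∀ m : ℕ, 0 < m → m < p → (m : ℂ) * z₀ ∉ L.lattice)
    (hpz₀ : (p : ℂ) * z₀ ∈ L.lattice) :
    (L'.g₂ ^ 3 - 27 * L'.g₃ ^ 2) * (∏ m ∈ Finset.Ico 1 p, ℘'[L] (m * z₀)) ^ 4 =
      (L.g₂ ^ 3 - 27 * L.g₃ ^ 2) ^ p :=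
  MzgaSuper.product_formula ⟨hp, hL', hz₀, hpz₀⟩

end Fermat.Agent.Mazur
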