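import Fermat.Agent.Lib.Mazur.G.An.Lattice
import Fermat.Agent.Lib.S24.JSurjective

/-!
# MAZUR (G), analysis chain AN1: uniformisation

Every pair `(A, B)` with `A³ - 27 B² ≠ 0` is `(g₂, g₃)` of a period pair `(c τ, c)`.
Uses `jFun_surjective` (S24 library).
-/

open Filter Topology Complex UpperHalfPlane
open scoped PeriodPair Real

namespace Fermat.Agent.Mazur

open Fermat.Agent.S24Lib

/-- `1728 g₂³ = j(τ) · (g₂³ - 27 g₃²)` for the period pair `(c τ, c)`. -/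
theorem mzgaLat_jFun (τ : ℍ) {c : ℂ} (hc : c ≠ 0) :
    1728 * (mzgaLat τ c hc).g₂ ^ 3 =
      jFun τ * ((mzgaLat τ c hc).g₂ ^ 3 - 27 * (mzgaLat τ c hc).g₃ ^ 2) := by
  have hΔ := ModularForm.discriminant_ne_zero τ
  have hπ : (π : ℂ) ≠ 0 := by exact_mod_cast Real.pi_ne_zero
  rw [mzgaLat_disc, mzgaLat_g₂, jFun]
  field_simp
  ring

theorem mzgaLat_disc_ne_zero (τ : ℍ) {c : ℂ} (hc : c ≠ 0) :
    (mzgaLat τ c hc).g₂ ^ 3 - 27 * (mzgaLat τ c hc).g₃ ^ 2 ≠ 0 := by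
  have hΔ := ModularForm.discriminant_ne_zero τ
  have hπ : (π : ℂ) ≠ 0 := by exact_mod_cast Real.pi_ne_zero
  rw [mzgaLat_disc]
  exact mul_ne_zero (mul_ne_zero (inv_ne_zero (pow_ne_zero _ hc))
    (pow_ne_zero _ (mul_ne_zero two_ne_zero hπ))) hΔ

/-- Scaling: `g₂(c τ, c) = c⁻⁴ g₂(τ, 1)`. -/
theorem mzgaLat_g₂_scale (τ : ℍ) {c : ℂ} (hc : c ≠ 0) :
    (mzgaLat τ c hc).g₂ = (c ^ 4)⁻¹ * (mzgaLat τ 1 one_ne_zero).g₂ := by
  rw [mzgaLat_g₂, mzgaLat_g₂]; simp; ring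

theorem mzgaLat_g₃_scale (τ : ℍ) {c : ℂ} (hc : c ≠ 0) :
    (mzgaLat τ c hc).g₃ = (c ^ 6)⁻¹ * (mzgaLat τ 1 one_ne_zero).g₃ := by
  rw [mzgaLat_g₃, mzgaLat_g₃]; simp; ring

/-- **AN1** (uniformisation): every `(A, B)` with `A³ - 27 B² ≠ 0` is `(g₂, g₃)` of a lattice. -/
theorem mzga_uniformisation {A B : ℂ} (h : A ^ 3 - 27 * B ^ 2 ≠ 0) :
    ∃ (τ : ℍ) (c : ℂ) (hc : c ≠ 0), (mzgaLat τ c hc).g₂ = A ∧ (mzgaLat τ c hc).g₃ = B := by
  obtain ⟨τ, hτ⟩ := jFun_surjective (1728 * A ^ 3 / (A ^ 3 - 27 * B ^ 2))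
  set a := (mzgaLat τ 1 one_ne_zero).g₂ with ha
  set b := (mzgaLat τ 1 one_ne_zero).g₃ with hb
  have hab : a ^ 3 - 27 * b ^ 2 ≠ 0 := mzgaLat_disc_ne_zero τ one_ne_zero
  have hj := mzgaLat_jFun τ (c := 1) one_ne_zero
  rw [← ha, ← hb, hτ] at hj
  have hrel : a ^ 3 * B ^ 2 = A ^ 3 * b ^ 2 := by
    have h1 : 1728 * a ^ 3 * (A ^ 3 - 27 * B ^ 2) = 1728 * A ^ 3 * (a ^ 3 - 27 * b ^ 2) := by
      rw [hj]; field_simp
    linear_combination (-1 / (1728 * 27) : ℂ) * h1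
  -- it suffices to find `c ≠ 0` with `a = c⁴ A`, `b = c⁶ B`
  suffices hsuff : ∃ c : ℂ, c ≠ 0 ∧ a = c ^ 4 * A ∧ b = c ^ 6 * B by
    obtain ⟨c, hc, h4, h6⟩ := hsuff
    refine ⟨τ, c, hc, ?_, ?_⟩
    · rw [mzgaLat_g₂_scale, ← ha, h4]; field_simp
    · rw [mzgaLat_g₃_scale, ← hb, h6]; field_simp
  by_cases hA : A = 0
  · have hB : B ≠ 0 := by
      rintro rfl; apply h; rw [hA]; ring
    have ha0 : a = 0 := by
      have : a ^ 3 * B ^ 2 = 0 := by rw [hrel, hA]; ring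
      have := (mul_eq_zero.mp this).resolve_right (pow_ne_zero _ hB)
      exact pow_eq_zero_iff (by norm_num) |>.mp this
    have hb0 : b ≠ 0 := by
      rintro hb0; apply hab; rw [ha0, hb0]; ring
    obtain ⟨c, hc⟩ := IsAlgClosed.exists_pow_nat_eq (b / B) (n := 6) (by norm_num)
    have hc0 : c ≠ 0 := by
      rintro rfl
      have : b / B = 0 := by rw [← hc]; ring
      exact div_ne_zero hb0 hB this
    refine ⟨c, hc0, by rw [ha0, hA]; ring, ?_⟩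
    rw [hc]; field_simp
  by_cases hB : B = 0
  · have hb0 : b = 0 := by
      have : A ^ 3 * b ^ 2 = 0 := by rw [← hrel, hB]; ring
      have := (mul_eq_zero.mp this).resolve_left (pow_ne_zero _ hA)
      exact pow_eq_zero_iff (by norm_num) |>.mp this
    have ha0 : a ≠ 0 := by
      rintro ha0; apply hab; rw [ha0, hb0]; ring
    obtain ⟨c, hc⟩ := IsAlgClosed.exists_pow_nat_eq (a / A) (n := 4) (by norm_num)
    have hc0 : c ≠ 0 := by
      rintro rfl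
      have : a / A = 0 := by rw [← hc]; ring
      exact div_ne_zero ha0 hA this
    refine ⟨c, hc0, ?_, by rw [hb0, hB]; ring⟩
    rw [hc]; field_simp
  · have ha0 : a ≠ 0 := by
      rintro ha0
      have : A ^ 3 * b ^ 2 = 0 := by rw [← hrel, ha0]; ring
      have := (mul_eq_zero.mp this).resolve_left (pow_ne_zero _ hA)
      have hb0 : b = 0 := pow_eq_zero_iff (by norm_num) |>.mp this
      apply hab; rw [ha0, hb0]; ring
    have hb0 : b ≠ 0 := by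
      rintro hb0
      have : a ^ 3 * B ^ 2 = 0 := by rw [hrel, hb0]; ring
      have := (mul_eq_zero.mp this).resolve_right (pow_ne_zero _ hB)
      exact ha0 (pow_eq_zero_iff (by norm_num) |>.mp this)
    obtain ⟨c, hc⟩ := IsAlgClosed.exists_pow_nat_eq (A * b / (B * a)) (n := 2) (by norm_num)
    have hc0 : c ≠ 0 := by
      rintro rfl
      have : A * b / (B * a) = 0 := by rw [← hc]; ring
      exact div_ne_zero (mul_ne_zero hA hb0) (mul_ne_zero hB ha0) this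
    have hc4 : c ^ 4 = (A * b / (B * a)) ^ 2 := by rw [← hc]; ring
    have hc6 : c ^ 6 = (A * b / (B * a)) ^ 3 := by rw [← hc]; ring
    refine ⟨c, hc0, ?_, ?_⟩
    · rw [hc4]; field_simp; linear_combination hrel
    · rw [hc6]; field_simp; linear_combination hrel

end Fermat.Agent.Mazur
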