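import Fermat.Agent.Lib.Mazur.G.An.Transport
import Fermat.Agent.Lib.Mazur.G.An.Product
import Fermat.Agent.Lib.Mazur.G.An.Uniformise

/-!
# MAZUR (G), analysis chain AN4 + AN7: the analytic input of the moduli dictionary

For an elliptic curve `W` over `ℚ` and a rational point `Q` of odd prime order `p` there is
`τ ∈ ℍ` with `j(τ) = j(W)` and `p¹² Δ(pτ)/Δ(τ) = Δ_W^(p-1) / (∏_{0<m<p} ψ₂(mQ))⁴`.
-/

open Filter Topology Complex UpperHalfPlane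
open scoped PeriodPair Real MatrixGroups

namespace Fermat.Agent.Mazur

open Fermat.Agent.S24Lib

local notation "Δ" => ModularForm.discriminant

/-! ### Change of basis -/

/-- Change of basis of the lattice `c (ℤ τ₁ + ℤ)` making `c (a' τ₁ + b')` the second period. -/
theorem mzga_lat_change (τ₁ : ℍ) {c : ℂ} (hc : c ≠ 0) {a' b' : ℤ} (hco : IsCoprime a' b') :
    ∃ (τ₂ : ℍ) (v₀ : ℂ) (hv : v₀ ≠ 0), v₀ = c * ((a' : ℂ) * τ₁ + b') ∧
      (mzgaLat τ₂ v₀ hv).lattice = (mzgaLat τ₁ c hc).lattice := by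
  obtain ⟨u, v, huv⟩ := hco
  -- `γ = [[v, -u], [a', b']]`
  have hdet : (!![v, -u; a', b'] : Matrix (Fin 2) (Fin 2) ℤ).det = 1 := by
    rw [Matrix.det_fin_two_of]; linarith
  set γ : SL(2, ℤ) := ⟨!![v, -u; a', b'], hdet⟩ with hγ
  have hd : (a' : ℂ) * τ₁ + b' ≠ 0 := by
    intro h0
    have him : (a' : ℝ) * τ₁.im = 0 := by
      have := congrArg Complex.im h0
      simpa using this
    have ha0 : a' = 0 := by
      have := (mul_eq_zero.mp him).resolve_right τ₁.im_ne_zero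
      exact_mod_cast this
    have hb0 : b' = 0 := by
      rw [ha0] at h0
      have := congrArg Complex.re h0
      simp at this
      exact_mod_cast this
    rw [ha0, hb0] at huv
    simp at huv
  have hτ₂ : ((γ • τ₁ : ℍ) : ℂ) = ((v : ℂ) * τ₁ + (-u : ℤ)) / ((a' : ℂ) * τ₁ + b') := by
    rw [UpperHalfPlane.coe_specialLinearGroup_apply]
    simp [hγ]
  have hv₀ : c * ((a' : ℂ) * τ₁ + b') ≠ 0 := mul_ne_zero hc hd
  refine ⟨γ • τ₁, c * ((a' : ℂ) * τ₁ + b'), hv₀, rfl, ?_⟩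
  have huvC : (u : ℂ) * a' + v * b' = 1 := by exact_mod_cast congrArg (Int.cast : ℤ → ℂ) huv
  ext x
  rw [mzgaLat_mem_iff, mzgaLat_mem_iff]
  have key : ∀ m n : ℂ, c * ((a' : ℂ) * τ₁ + b') *
      (m * (((v : ℂ) * τ₁ + (-u : ℤ)) / ((a' : ℂ) * τ₁ + b')) + n) =
      c * (m * ((v : ℂ) * τ₁ - u) + n * ((a' : ℂ) * τ₁ + b')) := by
    intro m n
    push_cast
    field_simp
    ring
  constructor
  · rintro ⟨m, n, rfl⟩
    refine ⟨m * v + n * a', -m * u + n * b', ?_⟩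
    rw [hτ₂, key]
    push_cast
    ring
  · rintro ⟨m₁, n₁, rfl⟩
    refine ⟨b' * m₁ - a' * n₁, u * m₁ + v * n₁, ?_⟩
    rw [hτ₂, key]
    push_cast
    linear_combination (-(c * (m₁ * τ₁ + n₁))) * huvC

/-! ### The superlattice -/

theorem mzga_super_mem_iff (τ₂ τ₃ : ℍ) {v₀ : ℂ} (hv : v₀ ≠ 0) {p : ℕ} (hp : 0 < p)
    (hτ₃ : (τ₃ : ℂ) = p * τ₂) {g : ℤ} (hg : IsCoprime g (p : ℤ)) {z₀ : ℂ}
    (hz₀ : z₀ = g * v₀ / p) (hvp : v₀ / p ≠ 0) (x : ℂ) :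
    x ∈ (mzgaLat τ₃ (v₀ / p) hvp).lattice ↔
      ∃ m : ℤ, ∃ l ∈ (mzgaLat τ₂ v₀ hv).lattice, x = l + m * z₀ := by
  have hpC : (p : ℂ) ≠ 0 := by exact_mod_cast hp.ne'
  rw [mzgaLat_mem_iff]
  constructor
  · rintro ⟨m, n, rfl⟩
    obtain ⟨α, β, hαβ⟩ := hg
    have hαβC : (α : ℂ) * g + β * p = 1 := by exact_mod_cast congrArg (Int.cast : ℤ → ℂ) hαβ
    refine ⟨n * α, v₀ * ((m : ℂ) * τ₂ + (n * β : ℤ)), (mzgaLat_mem_iff τ₂ hv).mpr ⟨m, n * β, rfl⟩, ?_⟩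
    rw [hτ₃, hz₀]
    push_cast
    have e1 : v₀ / p * ((m : ℂ) * (p * τ₂) + n) = v₀ * (m * τ₂) + n * (v₀ / p) := by
      field_simp
    rw [e1]
    have e2 : (n : ℂ) * (v₀ / p) = (n : ℂ) * (v₀ / p) * ((α : ℂ) * g + β * p) := by
      rw [hαβC, mul_one]
    rw [e2]
    field_simp
    ring
  · rintro ⟨k, l, hl, rfl⟩
    obtain ⟨m₁, n₁, rfl⟩ := (mzgaLat_mem_iff τ₂ hv).mp hl
    refine ⟨m₁, n₁ * p + k * g, ?_⟩
    rw [hτ₃, hz₀]
    push_cast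
    field_simp
    ring

/-! ### Assembly -/

/-- **AN7**: the analytic input of the moduli dictionary. -/
theorem mzga_analytic {p : ℕ} (hp : p.Prime) (hp2 : p ≠ 2) (W : WeierstrassCurve ℚ) [W.IsElliptic]
    (Q : W.toAffine.Point) (hQ : addOrderOf Q = p) :
    ∃ τ τ' : ℍ, (τ' : ℂ) = p * τ ∧ jFun τ = ((W.j : ℚ) : ℂ) ∧
      (p : ℂ) ^ 12 * Δ τ' = ((W.Δ ^ (p - 1) / mzgaPi W Q p ^ 4 : ℚ) : ℂ) * Δ τ := by
  have hpC : (p : ℂ) ≠ 0 := by exact_mod_cast hp.ne_zero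
  have hΔW : ((W.Δ : ℚ) : ℂ) ≠ 0 := by
    have : W.Δ ≠ 0 := W.isUnit_Δ.ne_zero
    exact_mod_cast this
  have hcrel : (((W.c₄ : ℚ) : ℂ) / 12) ^ 3 - 27 * (((W.c₆ : ℚ) : ℂ) / 216) ^ 2 =
      ((W.Δ : ℚ) : ℂ) := by
    have := W.c_relation
    have hC : (1728 : ℂ) * ((W.Δ : ℚ) : ℂ) = ((W.c₄ : ℚ) : ℂ) ^ 3 - ((W.c₆ : ℚ) : ℂ) ^ 2 := by
      exact_mod_cast congrArg (fun q : ℚ => (q : ℂ)) this
    linear_combination (-1 / 1728 : ℂ) * hC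
  -- uniformise
  obtain ⟨τ₁, c, hc, h2, h3⟩ := mzga_uniformisation (A := ((W.c₄ : ℚ) : ℂ) / 12)
    (B := ((W.c₆ : ℚ) : ℂ) / 216) (by rw [hcrel]; exact hΔW)
  set L := mzgaLat τ₁ c hc with hL
  have hdiscL : L.g₂ ^ 3 - 27 * L.g₃ ^ 2 = ((W.Δ : ℚ) : ℂ) := by rw [h2, h3, hcrel]
  set φ := mzgaTransport W L h2 h3 with hφ
  have hφinj : Function.Injective φ := mzgaTransport_injective W L h2 h3
  obtain ⟨z₀, hz₀⟩ := mzgaPointHom_surjective L (φ Q)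
  have hmul : ∀ m : ℕ, mzgaPointHom L ((m : ℂ) * z₀) = φ (m • Q) := by
    intro m
    rw [← nsmul_eq_mul, map_nsmul, hz₀, map_nsmul]
  have hpQ : p • Q = 0 := by rw [← hQ]; exact addOrderOf_nsmul_eq_zero Q
  have hp_mem : (p : ℂ) * z₀ ∈ L.lattice := by
    rw [← mzgaPointHom_eq_zero_iff, hmul, hpQ, map_zero]
  have hnot : ∀ m : ℕ, 0 < m → m < p → (m : ℂ) * z₀ ∉ L.lattice := by
    intro m hm0 hmp hmem
    rw [← mzgaPointHom_eq_zero_iff, hmul] at hmem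
    have h0 : m • Q = 0 := hφinj (by rw [hmem, map_zero])
    have := addOrderOf_dvd_of_nsmul_eq_zero h0
    rw [hQ] at this
    exact absurd (Nat.le_of_dvd hm0 this) (not_le.mpr hmp)
  -- the values of `℘'`
  have hpsi : ∀ m ∈ Finset.Ico 1 p, ℘'[L] ((m : ℂ) * z₀) = ((mzgaPsi2 W (m • Q) : ℚ) : ℂ) := by
    intro m hm
    have hm' := Finset.mem_Ico.mp hm
    have hnm := hnot m hm'.1 hm'.2
    have h1 := hmul m
    rw [mzgaPointHom_of_notMem L hnm] at h1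
    rcases hmQ : m • Q with _ | ⟨x, y, hxy⟩
    · exfalso
      rw [hmQ] at h1
      have : φ (WeierstrassCurve.Affine.Point.zero) = 0 := map_zero φ
      rw [this] at h1
      exact WeierstrassCurve.Affine.Point.some_ne_zero _ h1
    · rw [hmQ] at h1
      obtain ⟨h', e⟩ := mzgaTransport_some W L h2 h3 hxy
      rw [hφ, e] at h1
      simp only [WeierstrassCurve.Affine.Point.some.injEq] at h1
      simp only [mzgaPsi2]
      push_cast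
      linear_combination 2 * h1.2
  have hPi : ∏ m ∈ Finset.Ico 1 p, ℘'[L] ((m : ℂ) * z₀) = ((mzgaPi W Q p : ℚ) : ℂ) := by
    rw [Finset.prod_congr rfl hpsi, mzgaPi]
    push_cast
    rfl
  -- `p z₀ = c (a τ₁ + b)`
  obtain ⟨a, b, hab⟩ := (mzgaLat_mem_iff τ₁ hc).mp hp_mem
  have hz₀ne : z₀ ∉ L.lattice := by
    have := hnot 1 one_pos hp.one_lt
    simpa using this
  have hgpos : 0 < Int.gcd a b := by
    rw [Nat.pos_iff_ne_zero, Ne, Int.gcd_eq_zero_iff]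
    rintro ⟨rfl, rfl⟩
    apply hz₀ne
    have : z₀ = 0 := by
      have : (p : ℂ) * z₀ = 0 := by rw [hab]; simp
      exact (mul_eq_zero.mp this).resolve_left hpC
    rw [this]; exact zero_mem _
  obtain ⟨g, a', b', hg0, hgcd, ha, hb⟩ := Int.exists_gcd_one' hgpos
  have hco : IsCoprime a' b' := Int.isCoprime_iff_gcd_eq_one.mpr hgcd
  have hgp : IsCoprime (g : ℤ) (p : ℤ) := by
    rw [Nat.isCoprime_iff_coprime, Nat.coprime_comm, Nat.Prime.coprime_iff_not_dvd hp]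
    rintro ⟨k, rfl⟩
    apply hz₀ne
    rw [mzgaLat_mem_iff]
    refine ⟨a' * k, b' * k, ?_⟩
    have : (p : ℂ) * z₀ = (p : ℂ) * (c * (((a' * k : ℤ) : ℂ) * τ₁ + ((b' * k : ℤ) : ℂ))) := by
      rw [hab, ha, hb]; push_cast; ring
    exact mul_left_cancel₀ hpC this
  obtain ⟨τ₂, v₀, hv, hv₀, hlat⟩ := mzga_lat_change τ₁ hc hco
  have hz₀eq : z₀ = (g : ℤ) * v₀ / p := by
    rw [eq_div_iff hpC, mul_comm z₀, hab, hv₀, ha, hb]; push_cast; ring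
  -- the point `p τ₂`
  have him : 0 < ((p : ℂ) * τ₂).im := by
    have : ((p : ℂ) * τ₂).im = (p : ℝ) * τ₂.im := by simp
    rw [this]; exact mul_pos (by exact_mod_cast hp.pos) τ₂.im_pos
  set τ₃ : ℍ := ⟨(p : ℂ) * τ₂, him⟩ with hτ₃
  have hvp : v₀ / p ≠ 0 := div_ne_zero hv hpC
  set L₂ := mzgaLat τ₂ v₀ hv with hL₂
  set L' := mzgaLat τ₃ (v₀ / p) hvp with hL'
  have hsuper : MzgaSuper L L' p z₀ := by
    refine ⟨hp.odd_of_ne_two hp2, ?_, hnot, hp_mem⟩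
    intro x
    rw [mzga_super_mem_iff τ₂ τ₃ hv hp.pos rfl hgp hz₀eq hvp x, hlat]
  have hprod := hsuper.product_formula
  rw [hPi, hdiscL] at hprod
  -- discriminants
  have hdL : L.g₂ ^ 3 - 27 * L.g₃ ^ 2 = (v₀ ^ 12)⁻¹ * (2 * (π : ℂ)) ^ 12 * Δ τ₂ := by
    rw [← mzga_g₂_congr hlat, ← mzga_g₃_congr hlat]
    exact mzgaLat_disc τ₂ hv
  have hdL' : L'.g₂ ^ 3 - 27 * L'.g₃ ^ 2 = ((v₀ / p) ^ 12)⁻¹ * (2 * (π : ℂ)) ^ 12 * Δ τ₃ :=
    mzgaLat_disc τ₃ hvp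
  rw [hdL'] at hprod
  rw [hdiscL] at hdL
  have hπ : (π : ℂ) ≠ 0 := by exact_mod_cast Real.pi_ne_zero
  have hPi_ne : ((mzgaPi W Q p : ℚ) : ℂ) ≠ 0 := by
    intro h0
    rw [h0] at hprod
    have : ((W.Δ : ℚ) : ℂ) ^ p = 0 := by rw [← hprod]; simp
    exact hΔW (pow_eq_zero_iff hp.ne_zero |>.mp this)
  refine ⟨τ₂, τ₃, rfl, ?_, ?_⟩
  · -- the `j`-invariant
    have hj := mzgaLat_jFun τ₂ hv
    rw [mzga_g₂_congr hlat, mzga_g₃_congr hlat, hdiscL, h2] at hj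
    have hjW : ((W.j : ℚ) : ℂ) * ((W.Δ : ℚ) : ℂ) = ((W.c₄ : ℚ) : ℂ) ^ 3 := by
      have : W.j * W.Δ = W.c₄ ^ 3 := by
        rw [WeierstrassCurve.j, ← W.coe_Δ', mul_comm, ← mul_assoc, Units.mul_inv, one_mul]
      exact_mod_cast congrArg (fun q : ℚ => (q : ℂ)) this
    apply mul_right_cancel₀ hΔW
    rw [hjW, ← hj]; ring
  · -- the unit
    have hp1 : p = (p - 1) + 1 := (Nat.sub_add_cancel hp.pos).symm
    have hpow : ((W.Δ : ℚ) : ℂ) ^ p = ((W.Δ : ℚ) : ℂ) ^ (p - 1) * ((W.Δ : ℚ) : ℂ) := by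
      conv_lhs => rw [hp1, pow_succ]
    rw [hpow] at hprod
    push_cast
    generalize ((W.Δ : ℚ) : ℂ) ^ (p - 1) = D at hprod ⊢
    rw [hdL] at hprod
    field_simp
    field_simp at hprod
    linear_combination hprod

end Fermat.Agent.Mazur
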