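import Mathlib.Analysis.Analytic.Order
import Mathlib.Analysis.Calculus.Deriv.Add
import Mathlib.Analysis.Calculus.Deriv.Mul
import Mathlib.Analysis.Complex.Basic
import Mathlib.Analysis.Analytic.IsolatedZeros

/-!
# MAZUR (G), analysis chain: uniqueness for the ODE `y'' = 6 y² - c` among analytic germs

Pure Mathlib.  The proof is by orders of vanishing: the difference `h` of two solutions satisfies
`h'' = k h` with `k` analytic, and `h`, `h'` vanish at the base point; a finite order of vanishing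
`n` of `h` would give `n - 2 ≥ n`.
-/

open Filter Topology

namespace Fermat.Agent.Mazur

/-- If `h` is analytic at `z₀`, `h z₀ = 0`, `h' z₀ = 0` and `h'' = k h` near `z₀` with `k`
analytic, then `h` vanishes near `z₀`. -/
theorem mzga_linear_ode_zero {h k : ℂ → ℂ} {z₀ : ℂ} (hh : AnalyticAt ℂ h z₀)
    (hk : AnalyticAt ℂ k z₀) (hode : deriv (deriv h) =ᶠ[𝓝 z₀] fun z => k z * h z)
    (h0 : h z₀ = 0) (h1 : deriv h z₀ = 0) : h =ᶠ[𝓝 z₀] 0 := by
  suffices hs : analyticOrderAt h z₀ = ⊤ from analyticOrderAt_eq_top.mp hs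
  by_contra htop
  have e1 : analyticOrderAt (deriv h) z₀ + 1 = analyticOrderAt h z₀ := by
    have := hh.analyticOrderAt_deriv_add_one
    simpa [h0] using this
  have e2 : analyticOrderAt (deriv (deriv h)) z₀ + 1 = analyticOrderAt (deriv h) z₀ := by
    have := hh.deriv.analyticOrderAt_deriv_add_one
    simpa [h1] using this
  have e3 : analyticOrderAt (deriv (deriv h)) z₀ =
      analyticOrderAt k z₀ + analyticOrderAt h z₀ := by
    rw [analyticOrderAt_congr hode]
    exact analyticOrderAt_mul hk hh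
  obtain ⟨n, hn⟩ := ENat.ne_top_iff_exists.mp htop
  rw [← hn] at e1 e3
  rw [← e2, e3] at e1
  have e2 := e1
  -- `(a + n) + 1 + 1 = n` is impossible in `ℕ∞` for finite `n`
  have hle : (n : ℕ∞) + 1 ≤ n := by
    calc (n : ℕ∞) + 1 ≤ (analyticOrderAt k z₀ + n) + 1 + 1 := by
          have : (n : ℕ∞) ≤ analyticOrderAt k z₀ + n := le_add_self
          calc (n : ℕ∞) + 1 ≤ (analyticOrderAt k z₀ + n) + 1 := by gcongr
            _ ≤ (analyticOrderAt k z₀ + n) + 1 + 1 := le_self_add
      _ = n := e2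
  have : (n : ℕ∞) + 1 = ((n + 1 : ℕ) : ℕ∞) := by push_cast; rfl
  rw [this] at hle
  have := ENat.natCast_le_natCast.mp hle
  omega

/-- Uniqueness for `y'' = 6 y² - c` among analytic germs (the ODE is only needed on a punctured
neighbourhood). -/
theorem mzga_ode_unique {f g : ℂ → ℂ} {z₀ c : ℂ} (hf : AnalyticAt ℂ f z₀) (hg : AnalyticAt ℂ g z₀)
    (hf2 : ∀ᶠ z in 𝓝[≠] z₀, deriv (deriv f) z = 6 * f z ^ 2 - c)
    (hg2 : ∀ᶠ z in 𝓝[≠] z₀, deriv (deriv g) z = 6 * g z ^ 2 - c)
    (h0 : f z₀ = g z₀) (h1 : deriv f z₀ = deriv g z₀) : f =ᶠ[𝓝 z₀] g := by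
  have hfd : AnalyticAt ℂ (deriv f) z₀ := hf.deriv
  have hgd : AnalyticAt ℂ (deriv g) z₀ := hg.deriv
  have hfdd : AnalyticAt ℂ (deriv (deriv f)) z₀ := hfd.deriv
  have hgdd : AnalyticAt ℂ (deriv (deriv g)) z₀ := hgd.deriv
  -- the defect is analytic and vanishes on a punctured neighbourhood, hence on a neighbourhood
  have hD : (fun z => deriv (deriv f) z - deriv (deriv g) z) =ᶠ[𝓝 z₀]
      fun z => (6 * (f z + g z)) * (f z - g z) := by
    have hc1 : ContinuousAt (fun z => deriv (deriv f) z - deriv (deriv g) z) z₀ :=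
      (hfdd.sub hgdd).continuousAt
    have hc2 : ContinuousAt (fun z => (6 * (f z + g z)) * (f z - g z)) z₀ :=
      ((analyticAt_const.mul (hf.add hg)).mul (hf.sub hg)).continuousAt
    refine (hc1.eventuallyEq_nhds_iff_eventuallyEq_nhdsNE hc2).1 ?_
    filter_upwards [hf2, hg2] with z hz1 hz2
    rw [hz1, hz2]; ring
  have hsub1 : deriv (fun z => f z - g z) =ᶠ[𝓝 z₀] fun z => deriv f z - deriv g z := by
    filter_upwards [hf.eventually_analyticAt, hg.eventually_analyticAt] with z hz1 hz2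
    exact deriv_fun_sub hz1.differentiableAt hz2.differentiableAt
  have hsub2 : deriv (deriv (fun z => f z - g z)) =ᶠ[𝓝 z₀]
      fun z => deriv (deriv f) z - deriv (deriv g) z := by
    refine hsub1.deriv.trans ?_
    filter_upwards [hfd.eventually_analyticAt, hgd.eventually_analyticAt] with z hz1 hz2
    exact deriv_fun_sub hz1.differentiableAt hz2.differentiableAt
  have key : (fun z => f z - g z) =ᶠ[𝓝 z₀] 0 := by
    refine mzga_linear_ode_zero (k := fun z => 6 * (f z + g z)) (hf.sub hg)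
      (analyticAt_const.mul (hf.add hg)) (hsub2.trans hD) (by simp [h0]) ?_
    rw [hsub1.eq_of_nhds, h1, sub_self]
  filter_upwards [key] with z hz
  exact sub_eq_zero.mp hz

end Fermat.Agent.Mazur
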