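import Fermat.Agent.Lib.Mazur.G.An.Liouville
import Fermat.Agent.Lib.Mazur.G.An.Ode
import Mathlib.Analysis.Normed.Module.Connected
import Mathlib.Analysis.Calculus.MeanValue

/-!
# MAZUR (G), analysis chain AN2: basic facts on `℘`

* `℘'' = 6 ℘² - g₂/2`,
* `℘` takes every value, `z ↦ (℘ z, ℘' z)` is onto the curve `y² = 4x³ - g₂ x - g₃`,
* `z ↦ (℘ z, ℘' z)` is injective modulo the lattice,
* the discriminant `g₂³ - 27 g₃²` does not vanish.

Pure Mathlib.
-/

open Filter Topology
open scoped PeriodPair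

namespace Fermat.Agent.Mazur

/-! ### Topology of complements of translated lattices -/

theorem mzga_countable_lattice (L : PeriodPair) : (L.lattice : Set ℂ).Countable :=
  countable_of_Lindelof_of_discrete (X := L.lattice)

/-- The translate `{z | z + a ∈ L}` of the lattice. -/
def mzgaShift (L : PeriodPair) (a : ℂ) : Set ℂ := {z | z + a ∈ L.lattice}

theorem mzga_countable_shift (L : PeriodPair) (a : ℂ) : (mzgaShift L a).Countable := by
  have : mzgaShift L a = (fun z => z - a) '' (L.lattice : Set ℂ) := by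
    ext z
    simp only [mzgaShift, Set.mem_ofPred_eq, Set.mem_image, SetLike.mem_coe]
    constructor
    · intro h; exact ⟨z + a, h, by ring⟩
    · rintro ⟨y, hy, rfl⟩; simpa using hy
  rw [this]
  exact (mzga_countable_lattice L).image _

theorem mzga_isClosed_shift (L : PeriodPair) (a : ℂ) : IsClosed (mzgaShift L a) :=
  L.isClosed_lattice.preimage (continuous_id.add continuous_const)

theorem mzga_isPreconnected_compl {s : Set ℂ} (hs : s.Countable) : IsPreconnected sᶜ :=
  (Set.Countable.isConnected_compl_of_one_lt_rank (by simp) hs).2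

theorem mzga_isOpen_compl_lattice (L : PeriodPair) : IsOpen (L.lattice : Set ℂ)ᶜ :=
  L.isClosed_lattice.isOpen_compl

theorem mzga_isPreconnected_compl_lattice (L : PeriodPair) :
    IsPreconnected (L.lattice : Set ℂ)ᶜ :=
  mzga_isPreconnected_compl (mzga_countable_lattice L)

/-- Punctured neighbourhoods of any point eventually avoid the lattice. -/
theorem mzga_eventually_notMem (L : PeriodPair) (x : ℂ) : ∀ᶠ z in 𝓝[≠] x, z ∉ L.lattice := by
  have := L.compl_lattice_sdiff_singleton_mem_nhds x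
  filter_upwards [mem_nhdsWithin_of_mem_nhds this, self_mem_nhdsWithin] with z hz hz'
  intro hmem
  exact hz ⟨hmem, hz'⟩

theorem mzga_eventually_notMem_nhds (L : PeriodPair) {x : ℂ} (hx : x ∉ L.lattice) :
    ∀ᶠ z in 𝓝 x, z ∉ L.lattice :=
  (mzga_isOpen_compl_lattice L).mem_nhds hx

/-! ### Analyticity and derivatives off the lattice -/

theorem mzga_analyticAt_weierstrassP (L : PeriodPair) {z : ℂ} (hz : z ∉ L.lattice) :
    AnalyticAt ℂ ℘[L] z := L.analyticOnNhd_weierstrassP z hz

theorem mzga_analyticAt_derivWeierstrassP (L : PeriodPair) {z : ℂ} (hz : z ∉ L.lattice) :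
    AnalyticAt ℂ ℘'[L] z := L.analyticOnNhd_derivWeierstrassP z hz

theorem mzga_hasDerivAt_weierstrassP (L : PeriodPair) {z : ℂ} (hz : z ∉ L.lattice) :
    HasDerivAt ℘[L] (℘'[L] z) z := by
  have := (mzga_analyticAt_weierstrassP L hz).differentiableAt.hasDerivAt
  rwa [L.deriv_weierstrassP] at this

/-- `℘` is not locally constant. -/
theorem mzga_weierstrassP_not_eventually_const (L : PeriodPair) {z₁ : ℂ} (hz₁ : z₁ ∉ L.lattice)
    (c : ℂ) : ¬ ∀ᶠ z in 𝓝 z₁, ℘[L] z = c := by
  intro h
  have hEq : Set.EqOn ℘[L] (fun _ => c) (L.lattice : Set ℂ)ᶜ :=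
    L.analyticOnNhd_weierstrassP.eqOn_of_preconnected_of_eventuallyEq analyticOnNhd_const
      (mzga_isPreconnected_compl_lattice L) hz₁ h
  have h2 : ℘[L] =ᶠ[𝓝[≠] (0 : ℂ)] fun _ => c := by
    filter_upwards [mzga_eventually_notMem L 0] with z hz using hEq hz
  have h3 := L.order_weierstrassP 0 (zero_mem _)
  rw [meromorphicOrderAt_congr h2] at h3
  have hm2 : (-2 : WithTop ℤ) = ((-2 : ℤ) : WithTop ℤ) := by norm_num
  classical
  rw [meromorphicOrderAt_const, hm2] at h3
  split_ifs at h3
  · exact WithTop.top_ne_coe h3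
  · have := WithTop.coe_eq_coe.mp (h3 : ((0 : ℤ) : WithTop ℤ) = ((-2 : ℤ) : WithTop ℤ))
    omega

/-- `℘'` is not locally zero. -/
theorem mzga_derivWeierstrassP_not_eventually_zero (L : PeriodPair) {z₁ : ℂ}
    (hz₁ : z₁ ∉ L.lattice) : ¬ ∀ᶠ z in 𝓝 z₁, ℘'[L] z = 0 := by
  intro h
  obtain ⟨ε, hε, hball⟩ := Metric.eventually_nhds_iff_ball.mp
    (h.and (mzga_eventually_notMem_nhds L hz₁))
  refine mzga_weierstrassP_not_eventually_const L hz₁ (℘[L] z₁) ?_
  have hopen : IsOpen (Metric.ball z₁ ε) := Metric.isOpen_ball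
  have hconn : IsPreconnected (Metric.ball z₁ ε) := (convex_ball z₁ ε).isPreconnected
  have hdiff : DifferentiableOn ℂ ℘[L] (Metric.ball z₁ ε) := fun z hz =>
    (mzga_analyticAt_weierstrassP L (hball z hz).2).differentiableAt.differentiableWithinAt
  have hderiv : Set.EqOn (deriv ℘[L]) 0 (Metric.ball z₁ ε) := fun z hz => by
    rw [L.deriv_weierstrassP]; exact (hball z hz).1
  filter_upwards [hopen.mem_nhds (Metric.mem_ball_self hε)] with z hz
  exact hopen.is_const_of_deriv_eq_zero hconn hdiff hderiv hz (Metric.mem_ball_self hε)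

/-- `℘'' = 6 ℘² - g₂/2`. -/
theorem mzga_deriv_derivWeierstrassP (L : PeriodPair) {z : ℂ} (hz : z ∉ L.lattice) :
    deriv ℘'[L] z = 6 * ℘[L] z ^ 2 - L.g₂ / 2 := by
  -- differentiate the Weierstrass relation
  have hmul : ∀ w ∈ (L.lattice : Set ℂ)ᶜ,
      ℘'[L] w * (2 * deriv ℘'[L] w - 12 * ℘[L] w ^ 2 + L.g₂) = 0 := by
    intro w hw
    have hw' : w ∉ L.lattice := hw
    have hrel : (fun y => ℘'[L] y ^ 2) =ᶠ[𝓝 w]
        fun y => 4 * ℘[L] y ^ 3 - L.g₂ * ℘[L] y - L.g₃ := by
      filter_upwards [mzga_eventually_notMem_nhds L hw'] with y hy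
      exact L.derivWeierstrassP_sq y hy
    have hP := mzga_hasDerivAt_weierstrassP L hw'
    have hP' : HasDerivAt ℘'[L] (deriv ℘'[L] w) w :=
      (mzga_analyticAt_derivWeierstrassP L hw').differentiableAt.hasDerivAt
    have h1 : HasDerivAt (fun y => ℘'[L] y ^ 2) (2 * ℘'[L] w * deriv ℘'[L] w) w := by
      simpa using hP'.fun_pow 2
    have h2 : HasDerivAt (fun y => 4 * ℘[L] y ^ 3 - L.g₂ * ℘[L] y - L.g₃)
        (4 * (3 * ℘[L] w ^ 2 * ℘'[L] w) - L.g₂ * ℘'[L] w) w := by
      simpa using (((hP.pow 3).const_mul 4).sub (hP.const_mul L.g₂)).sub_const L.g₃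
    have := h1.unique (h2.congr_of_eventuallyEq hrel)
    linear_combination this
  have hA : AnalyticOnNhd ℂ ℘'[L] (L.lattice : Set ℂ)ᶜ := L.analyticOnNhd_derivWeierstrassP
  have hB : AnalyticOnNhd ℂ (fun w => 2 * deriv ℘'[L] w - 12 * ℘[L] w ^ 2 + L.g₂)
      (L.lattice : Set ℂ)ᶜ := by
    intro w hw
    have h1 := (hA w hw).deriv
    have h2 := L.analyticOnNhd_weierstrassP w hw
    fun_prop
  rcases hA.eq_zero_or_eq_zero_of_mul_eq_zero hB hmul (mzga_isPreconnected_compl_lattice L) with
    h | h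
  · exfalso
    refine mzga_derivWeierstrassP_not_eventually_zero L hz ?_
    filter_upwards [mzga_eventually_notMem_nhds L hz] with y hy using h y hy
  · have := h z hz
    linear_combination this / 2

/-! ### Orders at lattice points -/

theorem mzga_neg_two_eq : (-2 : WithTop ℤ) = ((-2 : ℤ) : WithTop ℤ) := by norm_num

/-- `℘ - c` has a double pole at every lattice point. -/
theorem mzga_order_weierstrassP_sub (L : PeriodPair) (c : ℂ) {l : ℂ} (hl : l ∈ L.lattice) :
    meromorphicOrderAt (fun y => ℘[L] y - c) l = -2 := by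
  have hlt : meromorphicOrderAt ℘[L] l < meromorphicOrderAt (fun _ : ℂ => -c) l := by
    classical
    rw [L.order_weierstrassP l hl, meromorphicOrderAt_const, mzga_neg_two_eq]
    split_ifs
    · exact WithTop.coe_lt_top _
    · exact WithTop.coe_lt_coe.mpr (by norm_num)
  have := meromorphicOrderAt_add_eq_left_of_lt (f₁ := ℘[L]) (f₂ := fun _ => -c) (x := l)
    (MeromorphicAt.const _ _) hlt
  rw [L.order_weierstrassP l hl] at this
  rw [← this]
  congr 1

/-! ### Surjectivity -/

/-- `℘` takes every value. -/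
theorem mzga_exists_weierstrassP_eq (L : PeriodPair) (c : ℂ) :
    ∃ z, z ∉ L.lattice ∧ ℘[L] z = c := by
  by_contra hne
  push Not at hne
  set f : ℂ → ℂ := fun z => (℘[L] z - c)⁻¹ with hf
  have hmer : ∀ z, MeromorphicAt f z := fun z =>
    ((L.meromorphic_weierstrassP z).sub (MeromorphicAt.const c z)).inv
  have hper : ∀ l ∈ L.lattice, ∀ z, f (z + l) = f z := by
    intro l hl z
    simp only [hf]
    rw [L.weierstrassP_add_coe z ⟨l, hl⟩]
  have han : ∀ z, z ∉ L.lattice → AnalyticAt ℂ f z := fun z hz =>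
    ((mzga_analyticAt_weierstrassP L hz).sub analyticAt_const).inv (sub_ne_zero.mpr (hne z hz))
  have hord : ∀ z, 0 ≤ meromorphicOrderAt f z := by
    intro z
    by_cases hz : z ∈ L.lattice
    · have h1 := mzga_order_weierstrassP_sub L c hz
      have h2 : meromorphicOrderAt f z = -meromorphicOrderAt (fun y => ℘[L] y - c) z :=
        meromorphicOrderAt_inv
      rw [h2, h1, mzga_neg_two_eq]
      exact WithTop.coe_nonneg.mpr (by norm_num)
    · exact (han z hz).meromorphicOrderAt_nonneg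
  obtain ⟨k, hk⟩ := mzga_liouville L hmer hper hord
  have hz₁ : L.ω₁ / 2 ∉ L.lattice := L.ω₁_div_two_notMem_lattice
  refine mzga_weierstrassP_not_eventually_const L hz₁ (c + k⁻¹) ?_
  filter_upwards [mzga_eventually_notMem_nhds L hz₁] with y hy
  have hfy : f y = k := hk y (han y hy).continuousAt
  have : ℘[L] y - c = k⁻¹ := by rw [← hfy]; simp [hf]
  linear_combination this

/-- `z ↦ (℘ z, ℘' z)` is onto the affine curve `y² = 4x³ - g₂ x - g₃`. -/
theorem mzga_exists_point (L : PeriodPair) {x y : ℂ} (h : y ^ 2 = 4 * x ^ 3 - L.g₂ * x - L.g₃) :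
    ∃ z, z ∉ L.lattice ∧ ℘[L] z = x ∧ ℘'[L] z = y := by
  obtain ⟨z, hz, hx⟩ := mzga_exists_weierstrassP_eq L x
  have hsq := L.derivWeierstrassP_sq z hz
  rw [hx, ← h] at hsq
  rcases sq_eq_sq_iff_eq_or_eq_neg.mp hsq with h1 | h1
  · exact ⟨z, hz, hx, h1⟩
  · exact ⟨-z, by simpa using hz, by simpa using hx, by simp [h1]⟩

/-! ### Injectivity modulo the lattice -/

theorem mzga_deriv_shift (L : PeriodPair) (a : ℂ) :
    deriv (fun z => ℘[L] (z + a)) = fun z => ℘'[L] (z + a) := by
  funext z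
  rw [deriv_comp_add_const, L.deriv_weierstrassP]

theorem mzga_deriv_deriv_shift (L : PeriodPair) (a : ℂ) {z : ℂ} (hz : z + a ∉ L.lattice) :
    deriv (deriv (fun z => ℘[L] (z + a))) z = 6 * ℘[L] (z + a) ^ 2 - L.g₂ / 2 := by
  rw [mzga_deriv_shift, deriv_comp_add_const, mzga_deriv_derivWeierstrassP L hz]

theorem mzga_analyticAt_shift (L : PeriodPair) (a : ℂ) {z : ℂ} (hz : z + a ∉ L.lattice) :
    AnalyticAt ℂ (fun z => ℘[L] (z + a)) z :=
  (mzga_analyticAt_weierstrassP L hz).comp_of_eq (f := fun z => z + a) (by fun_prop) rfl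

theorem mzga_eventually_shift_notMem (L : PeriodPair) {a z : ℂ} (hz : z + a ∉ L.lattice) :
    ∀ᶠ y in 𝓝 z, y + a ∉ L.lattice :=
  (continuous_id.add continuous_const).continuousAt.eventually
    (mzga_eventually_notMem_nhds L hz)

/-- `z ↦ (℘ z, ℘' z)` is injective modulo `L`. -/
theorem mzga_sub_mem_lattice (L : PeriodPair) {a b : ℂ} (ha : a ∉ L.lattice) (hb : b ∉ L.lattice)
    (h : ℘[L] a = ℘[L] b) (h' : ℘'[L] a = ℘'[L] b) : a - b ∈ L.lattice := by
  by_contra hab
  set f : ℂ → ℂ := fun z => ℘[L] (z + a) with hf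
  set g : ℂ → ℂ := fun z => ℘[L] (z + b) with hg
  have ha0 : (0 : ℂ) + a ∉ L.lattice := by simpa using ha
  have hb0 : (0 : ℂ) + b ∉ L.lattice := by simpa using hb
  have hfg0 : f =ᶠ[𝓝 0] g := by
    refine mzga_ode_unique (c := L.g₂ / 2) (mzga_analyticAt_shift L a ha0)
      (mzga_analyticAt_shift L b hb0) ?_ ?_ (by simpa [hf, hg] using h) ?_
    · refine Filter.Eventually.filter_mono nhdsWithin_le_nhds ?_
      filter_upwards [mzga_eventually_shift_notMem L ha0] with z hz
      exact mzga_deriv_deriv_shift L a hz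
    · refine Filter.Eventually.filter_mono nhdsWithin_le_nhds ?_
      filter_upwards [mzga_eventually_shift_notMem L hb0] with z hz
      exact mzga_deriv_deriv_shift L b hz
    · rw [hf, hg, mzga_deriv_shift, mzga_deriv_shift]
      simpa using h'
  -- identity theorem on the complement of the two translated lattices
  set V : Set ℂ := (mzgaShift L a ∪ mzgaShift L b)ᶜ with hV
  have hVpre : IsPreconnected V :=
    mzga_isPreconnected_compl ((mzga_countable_shift L a).union (mzga_countable_shift L b))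
  have hfV : AnalyticOnNhd ℂ f V := fun z hz =>
    mzga_analyticAt_shift L a (fun hmem => hz (Or.inl hmem))
  have hgV : AnalyticOnNhd ℂ g V := fun z hz =>
    mzga_analyticAt_shift L b (fun hmem => hz (Or.inr hmem))
  have h0V : (0 : ℂ) ∈ V := by
    rintro (hmem | hmem)
    · exact ha0 hmem
    · exact hb0 hmem
  have hEq : Set.EqOn f g V := hfV.eqOn_of_preconnected_of_eventuallyEq hgV hVpre h0V hfg0
  -- compare orders at `-a`
  have hba : -a + b ∉ L.lattice := by
    intro hmem
    apply hab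
    have := neg_mem hmem
    simpa [sub_eq_add_neg, add_comm] using this
  have hnear : f =ᶠ[𝓝[≠] (-a)] g := by
    have h1 : ∀ᶠ z in 𝓝[≠] (-a), z + a ∉ L.lattice := by
      have := (mzga_tendsto_add_nhdsNE (-a) a).eventually
        (by simpa using mzga_eventually_notMem L (-a + a))
      exact this
    have h2 : ∀ᶠ z in 𝓝[≠] (-a), z + b ∉ L.lattice :=
      (mzga_eventually_shift_notMem L hba).filter_mono nhdsWithin_le_nhds
    filter_upwards [h1, h2] with z hz1 hz2
    refine hEq ?_
    rintro (hmem | hmem)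
    · exact hz1 hmem
    · exact hz2 hmem
  have hordf : meromorphicOrderAt f (-a) = -2 := by
    rw [hf, mzga_order_comp_add]
    exact L.order_weierstrassP _ (by simp)
  have hordg : 0 ≤ meromorphicOrderAt g (-a) :=
    (mzga_analyticAt_shift L b hba).meromorphicOrderAt_nonneg
  rw [← meromorphicOrderAt_congr hnear, hordf, mzga_neg_two_eq] at hordg
  have := WithTop.coe_le_coe.mp (hordg : ((0 : ℤ) : WithTop ℤ) ≤ ((-2 : ℤ) : WithTop ℤ))
  omega

theorem mzga_weierstrassP_eq_iff (L : PeriodPair) {a b : ℂ} (ha : a ∉ L.lattice)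
    (hb : b ∉ L.lattice) : ℘[L] a = ℘[L] b ↔ a - b ∈ L.lattice ∨ a + b ∈ L.lattice := by
  constructor
  · intro h
    have hsq : ℘'[L] a ^ 2 = ℘'[L] b ^ 2 := by
      rw [L.derivWeierstrassP_sq a ha, L.derivWeierstrassP_sq b hb, h]
    rcases sq_eq_sq_iff_eq_or_eq_neg.mp hsq with h1 | h1
    · exact Or.inl (mzga_sub_mem_lattice L ha hb h h1)
    · right
      have hnb : -b ∉ L.lattice := by simpa using hb
      have := mzga_sub_mem_lattice L ha hnb (by simpa using h) (by simpa using h1)
      simpa using this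
  · rintro (h | h)
    · have := L.weierstrassP_add_coe b ⟨a - b, h⟩
      simpa using this
    · have := L.weierstrassP_sub_coe a ⟨a + b, h⟩
      have h2 : a - (a + b) = -b := by ring
      simp only [h2, L.weierstrassP_neg] at this
      exact this.symm

/-! ### Nonvanishing of the discriminant -/

/-- The discriminant of a lattice does not vanish. -/
theorem mzga_disc_ne_zero (L : PeriodPair) : L.g₂ ^ 3 - 27 * L.g₃ ^ 2 ≠ 0 := by
  intro hdisc
  -- a double root of the cubic
  obtain ⟨e, he1, he2⟩ : ∃ e : ℂ, 4 * e ^ 3 - L.g₂ * e - L.g₃ = 0 ∧ 12 * e ^ 2 - L.g₂ = 0 := by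
    by_cases hg2 : L.g₂ = 0
    · have hg3 : L.g₃ = 0 := by
        have : 27 * L.g₃ ^ 2 = 0 := by rw [hg2] at hdisc; linear_combination -hdisc
        simpa using this
      exact ⟨0, by simp [hg2, hg3], by simp [hg2]⟩
    · refine ⟨-3 * L.g₃ / (2 * L.g₂), ?_, ?_⟩
      · field_simp
        linear_combination (4 * L.g₃) * hdisc
      · field_simp
        linear_combination (-4 : ℂ) * hdisc
  obtain ⟨z₁, hz₁, hP⟩ := mzga_exists_weierstrassP_eq L e
  have hP' : ℘'[L] z₁ = 0 := by
    have := L.derivWeierstrassP_sq z₁ hz₁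
    rw [hP, he1] at this
    simpa using this
  refine mzga_weierstrassP_not_eventually_const L hz₁ e ?_
  refine mzga_ode_unique (c := L.g₂ / 2) (mzga_analyticAt_weierstrassP L hz₁) analyticAt_const
    ?_ ?_ hP ?_
  · refine Filter.Eventually.filter_mono nhdsWithin_le_nhds ?_
    filter_upwards [mzga_eventually_notMem_nhds L hz₁] with z hz
    rw [L.deriv_weierstrassP]
    exact mzga_deriv_derivWeierstrassP L hz
  · refine Filter.Eventually.of_forall fun z => ?_
    simp only [deriv_const', deriv_const]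
    linear_combination -he2 / 2
  · rw [L.deriv_weierstrassP, hP']
    simp

end Fermat.Agent.Mazur
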