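import Mathlib.Analysis.SpecialFunctions.Elliptic.Weierstrass
import Mathlib.NumberTheory.ModularForms.EisensteinSeries.QExpansion
import Mathlib.NumberTheory.ModularForms.LevelOne.GradedRing
import Mathlib.NumberTheory.LSeries.HurwitzZetaValues

/-!
# MAZUR (G), analysis chain AN0: period pairs versus points of the upper half plane

For `τ ∈ ℍ`, `c ≠ 0` the period pair `mzgaLat τ c = (c τ, c)` has
`G_k = c^{-k} · 2 ζ(k) E_k(τ)`, hence `g₂ = c⁻⁴ (4π⁴/3) E₄(τ)`, `g₃ = c⁻⁶ (8π⁶/27) E₆(τ)` and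
`g₂³ - 27 g₃² = c⁻¹² (2π)¹² Δ(τ)`.  All lattice functions depend only on the lattice, and every
period pair has the lattice of some `mzgaLat τ c`.  Pure Mathlib.
-/

open Filter Topology Complex UpperHalfPlane
open scoped PeriodPair Real

namespace Fermat.Agent.Mazur

/-! ### Dependence on the lattice only -/

theorem mzga_tsum_congr_submodule {S T : Submodule ℤ ℂ} (h : S = T) (f : ℂ → ℂ) :
    ∑' l : S, f l = ∑' l : T, f l := by
  subst h; rfl

theorem mzga_G_congr {L M : PeriodPair} (h : L.lattice = M.lattice) (n : ℕ) : L.G n = M.G n :=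
  mzga_tsum_congr_submodule h fun l => (l ^ n)⁻¹

theorem mzga_g₂_congr {L M : PeriodPair} (h : L.lattice = M.lattice) : L.g₂ = M.g₂ := by
  rw [PeriodPair.g₂, PeriodPair.g₂, mzga_G_congr h]

theorem mzga_g₃_congr {L M : PeriodPair} (h : L.lattice = M.lattice) : L.g₃ = M.g₃ := by
  rw [PeriodPair.g₃, PeriodPair.g₃, mzga_G_congr h]

theorem mzga_weierstrassP_congr {L M : PeriodPair} (h : L.lattice = M.lattice) :
    ℘[L] = ℘[M] := by
  funext z
  exact mzga_tsum_congr_submodule h fun l => 1 / (z - l) ^ 2 - 1 / l ^ 2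

theorem mzga_derivWeierstrassP_congr {L M : PeriodPair} (h : L.lattice = M.lattice) :
    ℘'[L] = ℘'[M] := by
  funext z
  simp only [PeriodPair.derivWeierstrassP]
  rw [mzga_tsum_congr_submodule h fun l => 2 / (z - l) ^ 3]

/-! ### The period pair `(c τ, c)` -/

theorem mzga_indep (τ : ℍ) {c : ℂ} (hc : c ≠ 0) :
    LinearIndependent ℝ ![c * (τ : ℂ), c] := by
  rw [LinearIndependent.pair_iff]
  intro s t hst
  have h1 : c * ((s : ℂ) * τ + t) = 0 := by
    have : s • (c * (τ : ℂ)) + t • c = c * ((s : ℂ) * τ + t) := by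
      simp only [Complex.real_smul]; ring
    rw [← this]; exact hst
  have h2 : (s : ℂ) * τ + t = 0 := (mul_eq_zero.mp h1).resolve_left hc
  have him : s * τ.im = 0 := by
    have := congrArg Complex.im h2
    simpa using this
  have hs : s = 0 := (mul_eq_zero.mp him).resolve_right τ.im_ne_zero
  refine ⟨hs, ?_⟩
  rw [hs] at h2
  have := congrArg Complex.re h2
  simpa using this

/-- The period pair `(c τ, c)`. -/
noncomputable def mzgaLat (τ : ℍ) (c : ℂ) (hc : c ≠ 0) : PeriodPair :=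
  ⟨c * τ, c, mzga_indep τ hc⟩

@[simp] theorem mzgaLat_ω₁ (τ : ℍ) {c : ℂ} (hc : c ≠ 0) : (mzgaLat τ c hc).ω₁ = c * τ := rfl
@[simp] theorem mzgaLat_ω₂ (τ : ℍ) {c : ℂ} (hc : c ≠ 0) : (mzgaLat τ c hc).ω₂ = c := rfl

theorem mzgaLat_mem_iff (τ : ℍ) {c : ℂ} (hc : c ≠ 0) {x : ℂ} :
    x ∈ (mzgaLat τ c hc).lattice ↔ ∃ m n : ℤ, x = c * ((m : ℂ) * τ + n) := by
  rw [PeriodPair.mem_lattice]
  constructor
  · rintro ⟨m, n, rfl⟩; exact ⟨m, n, by simp; ring⟩
  · rintro ⟨m, n, rfl⟩; exact ⟨m, n, by simp; ring⟩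

open EisensteinSeries ModularForm in
/-- `G_k(c τ, c) = c^{-k} · 2 ζ(k) E_k(τ)`. -/
theorem mzgaLat_G (τ : ℍ) {c : ℂ} (hc : c ≠ 0) {k : ℕ} (hk : 3 ≤ k) :
    (mzgaLat τ c hc).G k = (c ^ k)⁻¹ * (2 * riemannZeta k * ModularForm.E hk τ) := by
  set L := mzgaLat τ c hc with hL
  have h1 : L.G k = ∑' x : ℤ × ℤ, (c ^ k)⁻¹ * eisSummand k ![x.1, x.2] τ := by
    rw [PeriodPair.G, ← L.latticeEquivProd.symm.toEquiv.tsum_eq]
    refine tsum_congr fun x => ?_
    have : ((L.latticeEquivProd.symm.toEquiv x : L.lattice) : ℂ) =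
        c * ((x.1 : ℂ) * τ + x.2) := by
      rw [LinearEquiv.coe_toEquiv, L.latticeEquiv_symm_apply]
      simp [hL]; ring
    rw [this, mul_pow, mul_inv, eisSummand]
    simp [zpow_neg]
  have h2 : ∑' x : ℤ × ℤ, eisSummand k ![x.1, x.2] τ = ∑' v : Fin 2 → ℤ, eisSummand k v τ := by
    rw [← (finTwoArrowEquiv ℤ).symm.tsum_eq]
    simp [finTwoArrowEquiv_symm_apply]
  have h3 := tsum_eisSummand_eq_riemannZeta_mul_eisensteinSeries hk τ
  have h4 : ModularForm.E hk τ = (1 / 2 : ℂ) * eisensteinSeries (N := 1) 0 k τ := rfl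
  rw [h1, tsum_mul_left, h2, h3, h4]
  ring

theorem mzga_bernoulli_six : _root_.bernoulli 6 = 1 / 42 := by
  rw [bernoulli_eq_bernoulli'_of_ne_one (by norm_num)]
  have h5 : bernoulli' 5 = 0 := bernoulli'_eq_zero_of_odd (by decide) (by norm_num)
  rw [bernoulli'_def]
  norm_num [Finset.sum_range_succ, Finset.sum_range_zero, Nat.choose, h5]

theorem mzga_riemannZeta_six : riemannZeta 6 = (π : ℂ) ^ 6 / 945 := by
  have := riemannZeta_two_mul_nat (k := 3) (by norm_num)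
  norm_num [mzga_bernoulli_six, Nat.factorial] at this
  rw [this]; ring

theorem mzgaLat_g₂ (τ : ℍ) {c : ℂ} (hc : c ≠ 0) :
    (mzgaLat τ c hc).g₂ = (c ^ 4)⁻¹ * (4 * (π : ℂ) ^ 4 / 3) * ModularForm.E₄ τ := by
  rw [PeriodPair.g₂, mzgaLat_G τ hc (by norm_num : 3 ≤ 4)]
  have : riemannZeta ((4 : ℕ) : ℂ) = (π : ℂ) ^ 4 / 90 := by exact_mod_cast riemannZeta_four
  rw [this]; ring

theorem mzgaLat_g₃ (τ : ℍ) {c : ℂ} (hc : c ≠ 0) :
    (mzgaLat τ c hc).g₃ = (c ^ 6)⁻¹ * (8 * (π : ℂ) ^ 6 / 27) * ModularForm.E₆ τ := by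
  rw [PeriodPair.g₃, mzgaLat_G τ hc (by norm_num : 3 ≤ 6)]
  have : riemannZeta ((6 : ℕ) : ℂ) = (π : ℂ) ^ 6 / 945 := by exact_mod_cast mzga_riemannZeta_six
  rw [this]; ring

/-- `Δ(c τ, c) = c⁻¹² (2π)¹² Δ(τ)`. -/
theorem mzgaLat_disc (τ : ℍ) {c : ℂ} (hc : c ≠ 0) :
    (mzgaLat τ c hc).g₂ ^ 3 - 27 * (mzgaLat τ c hc).g₃ ^ 2 =
      (c ^ 12)⁻¹ * (2 * (π : ℂ)) ^ 12 * ModularForm.discriminant τ := by
  rw [mzgaLat_g₂, mzgaLat_g₃, ModularForm.discriminant_eq_E₄_cube_sub_E₆_sq]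
  field_simp
  ring

/-! ### Every period pair is of this shape, up to the choice of basis -/

theorem mzga_exists_lat (L : PeriodPair) :
    ∃ (τ : ℍ) (c : ℂ) (hc : c ≠ 0), (mzgaLat τ c hc).lattice = L.lattice := by
  have h1 : L.ω₁ ≠ 0 := by
    intro h
    have := L.indep
    rw [LinearIndependent.pair_iff] at this
    have := this 1 0 (by simp [h])
    exact one_ne_zero this.1
  have h2 : L.ω₂ ≠ 0 := by
    intro h
    have := L.indep
    rw [LinearIndependent.pair_iff] at this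
    have := this 0 1 (by simp [h])
    exact one_ne_zero this.2
  have him : (L.ω₁ / L.ω₂).im ≠ 0 := by
    intro h
    have hreal : L.ω₁ / L.ω₂ = ((L.ω₁ / L.ω₂).re : ℂ) := by
      apply Complex.ext <;> simp [h]
    have := L.indep
    rw [LinearIndependent.pair_iff] at this
    have := this 1 (-(L.ω₁ / L.ω₂).re) (by
      simp only [Complex.real_smul, Complex.ofReal_one, one_mul, Complex.ofReal_neg]
      rw [← hreal]; field_simp; ring)
    exact one_ne_zero this.1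
  rcases lt_or_gt_of_ne him with hneg | hpos
  · -- `Im (ω₂ / ω₁) > 0`
    have hpos' : 0 < (L.ω₂ / L.ω₁).im := by
      have : L.ω₂ / L.ω₁ = (L.ω₁ / L.ω₂)⁻¹ := by rw [inv_div]
      rw [this, Complex.inv_im]
      exact div_pos (neg_pos.mpr hneg) (Complex.normSq_pos.mpr (div_ne_zero h1 h2))
    refine ⟨⟨L.ω₂ / L.ω₁, hpos'⟩, L.ω₁, h1, ?_⟩
    ext x
    rw [mzgaLat_mem_iff, PeriodPair.mem_lattice]
    constructor
    · rintro ⟨m, n, rfl⟩
      refine ⟨n, m, ?_⟩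
      field_simp; ring
    · rintro ⟨m, n, rfl⟩
      refine ⟨n, m, ?_⟩
      field_simp; ring
  · refine ⟨⟨L.ω₁ / L.ω₂, hpos⟩, L.ω₂, h2, ?_⟩
    ext x
    rw [mzgaLat_mem_iff, PeriodPair.mem_lattice]
    constructor
    · rintro ⟨m, n, rfl⟩
      refine ⟨m, n, ?_⟩
      field_simp
    · rintro ⟨m, n, rfl⟩
      refine ⟨m, n, ?_⟩
      field_simp

end Fermat.Agent.Mazur
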