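import Mathlib.Analysis.SpecialFunctions.Elliptic.Weierstrass
import Mathlib.Analysis.Meromorphic.NormalForm

/-!
# MAZUR (G), analysis chain: Liouville for elliptic functions

An `L`-periodic meromorphic function on `ℂ` all of whose orders are `≥ 0` is constant.
Pure Mathlib.
-/

open Filter Topology
open scoped PeriodPair

namespace Fermat.Agent.Mazur

/-- Translation by `w` maps punctured neighbourhoods of `z` to punctured neighbourhoods of
`z + w`. -/
theorem mzga_tendsto_add_nhdsNE (z w : ℂ) :
    Tendsto (fun y : ℂ => y + w) (𝓝[≠] z) (𝓝[≠] (z + w)) := by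
  refine tendsto_nhdsWithin_of_tendsto_nhds_of_eventually_within _ ?_ ?_
  · exact (continuous_id.add continuous_const).continuousAt.tendsto.mono_left nhdsWithin_le_nhds
  · filter_upwards [self_mem_nhdsWithin] with y hy
    simpa using hy

/-- The order of a function at `z + w` is the order of its translate at `z`. -/
theorem mzga_order_comp_add (f : ℂ → ℂ) (z w : ℂ) :
    meromorphicOrderAt (fun y => f (y + w)) z = meromorphicOrderAt f (z + w) := by
  exact meromorphicOrderAt_fun_comp_add_const_eq_meromorphicOrderAt (f := f) (x := z) (c := w)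

/-- The order of a periodic function is periodic. -/
theorem mzga_order_periodic {f : ℂ → ℂ} {w : ℂ} (hper : ∀ z, f (z + w) = f z) (z : ℂ) :
    meromorphicOrderAt f (z + w) = meromorphicOrderAt f z := by
  rw [← mzga_order_comp_add]
  congr 1
  funext y
  exact hper y

/-- An `L`-periodic meromorphic function all of whose orders are `≥ 0` is constant
(at all its points of continuity). -/
theorem mzga_liouville (L : PeriodPair) {f : ℂ → ℂ} (hmer : ∀ z, MeromorphicAt f z)
    (hper : ∀ l ∈ L.lattice, ∀ z, f (z + l) = f z)
    (hord : ∀ z, 0 ≤ meromorphicOrderAt f z) :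
    ∃ c : ℂ, ∀ z, ContinuousAt f z → f z = c := by
  have hmerOn : MeromorphicOn f Set.univ := fun z _ => hmer z
  set g := toMeromorphicNFOn f Set.univ with hg
  have hgf : ∀ z, g =ᶠ[𝓝[≠] z] f := fun z =>
    hmerOn.toMeromorphicNFOn_eq_self_on_nhdsNE (Set.mem_univ z)
  have hgan : ∀ z, AnalyticAt ℂ g z := by
    intro z
    have hnf : MeromorphicNFAt g z :=
      meromorphicNFOn_toMeromorphicNFOn f Set.univ (Set.mem_univ z)
    rw [← hnf.meromorphicOrderAt_nonneg_iff_analyticAt, hg,
      meromorphicOrderAt_toMeromorphicNFOn hmerOn (Set.mem_univ z)]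
    exact hord z
  have hgdiff : Differentiable ℂ g := fun z => (hgan z).differentiableAt
  have hgper : ∀ z w, w ∈ L.lattice → g (z + w) = g z := by
    intro z w hw
    have h1 : (fun y => g (y + w)) =ᶠ[𝓝[≠] z] g := by
      have := (mzga_tendsto_add_nhdsNE z w).eventually (hgf (z + w))
      filter_upwards [this, hgf z] with y hy1 hy2
      rw [hy1, hper w hw, hy2]
    have hc1 : ContinuousAt (fun y => g (y + w)) z :=
      (hgdiff.continuous.comp (continuous_id.add continuous_const)).continuousAt
    have hc2 : ContinuousAt g z := (hgan z).continuousAt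
    exact ((hc1.eventuallyEq_nhds_iff_eventuallyEq_nhdsNE hc2).1 h1).eq_of_nhds
  have hbdd : Bornology.IsBounded (Set.range g) :=
    (IsZLattice.isCompact_range_of_periodic L.lattice g hgdiff.continuous hgper).isBounded
  refine ⟨g 0, fun z hz => ?_⟩
  have hfg : f z = g z :=
    ((hz.eventuallyEq_nhds_iff_eventuallyEq_nhdsNE (hgan z).continuousAt).1
      (hgf z).symm).eq_of_nhds
  rw [hfg]
  exact hgdiff.apply_eq_apply_of_bounded hbdd z 0

end Fermat.Agent.Mazur
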