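import Fermat.Agent.Lib.Mazur.G.An.Addition
import Mathlib.AlgebraicGeometry.EllipticCurve.Affine.Point
import Mathlib.Topology.Algebra.Module.Cardinality

/-!
# MAZUR (G), analysis chain AN3b: the uniformisation `ℂ → E_L(ℂ)` as a group homomorphism

`mzgaCurve L : y² = x³ - (g₂/4) x - g₃/4`, `mzgaPointHom L z = (℘ z, ℘' z / 2)`,
kernel `L`, surjective.  Pure Mathlib.
-/

open Filter Topology
open scoped PeriodPair
open WeierstrassCurve.Affine

namespace Fermat.Agent.Mazur

/-- The curve `y² = x³ - (g₂/4) x - g₃/4`, uniformised by `(℘, ℘'/2)`. -/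
noncomputable def mzgaCurve (L : PeriodPair) : WeierstrassCurve ℂ :=
  ⟨0, 0, 0, -L.g₂ / 4, -L.g₃ / 4⟩

@[simp] theorem mzgaCurve_a₁ (L : PeriodPair) : (mzgaCurve L).a₁ = 0 := rfl
@[simp] theorem mzgaCurve_a₂ (L : PeriodPair) : (mzgaCurve L).a₂ = 0 := rfl
@[simp] theorem mzgaCurve_a₃ (L : PeriodPair) : (mzgaCurve L).a₃ = 0 := rfl
@[simp] theorem mzgaCurve_a₄ (L : PeriodPair) : (mzgaCurve L).a₄ = -L.g₂ / 4 := rfl
@[simp] theorem mzgaCurve_a₆ (L : PeriodPair) : (mzgaCurve L).a₆ = -L.g₃ / 4 := rfl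

theorem mzgaCurve_Δ (L : PeriodPair) : (mzgaCurve L).Δ = L.g₂ ^ 3 - 27 * L.g₃ ^ 2 := by
  simp only [WeierstrassCurve.Δ, WeierstrassCurve.b₂, WeierstrassCurve.b₄, WeierstrassCurve.b₆,
    WeierstrassCurve.b₈, mzgaCurve_a₁, mzgaCurve_a₂, mzgaCurve_a₃, mzgaCurve_a₄, mzgaCurve_a₆]
  ring

instance mzgaCurve_isElliptic (L : PeriodPair) : (mzgaCurve L).IsElliptic :=
  ⟨by rw [mzgaCurve_Δ]; exact (mzga_disc_ne_zero L).isUnit⟩

theorem mzga_equation_iff (L : PeriodPair) (x y : ℂ) :
    (mzgaCurve L).toAffine.Equation x y ↔ (2 * y) ^ 2 = 4 * x ^ 3 - L.g₂ * x - L.g₃ := by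
  rw [WeierstrassCurve.Affine.equation_iff]
  simp only [mzgaCurve_a₁, mzgaCurve_a₂, mzgaCurve_a₃, mzgaCurve_a₄, mzgaCurve_a₆]
  constructor
  · intro h; linear_combination 4 * h
  · intro h; linear_combination h / 4

theorem mzga_equation (L : PeriodPair) {z : ℂ} (hz : z ∉ L.lattice) :
    (mzgaCurve L).toAffine.Equation (℘[L] z) (℘'[L] z / 2) := by
  rw [mzga_equation_iff]
  have := L.derivWeierstrassP_sq z hz
  rw [← this]; ring

theorem mzga_nonsingular (L : PeriodPair) {z : ℂ} (hz : z ∉ L.lattice) :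
    (mzgaCurve L).toAffine.Nonsingular (℘[L] z) (℘'[L] z / 2) :=
  (WeierstrassCurve.Affine.equation_iff_nonsingular).mp (mzga_equation L hz)

open Classical in
/-- The point `(℘ z, ℘' z / 2)` of `mzgaCurve L` (the origin for `z ∈ L`). -/
noncomputable def mzgaPoint (L : PeriodPair) (z : ℂ) : (mzgaCurve L).toAffine.Point :=
  if h : z ∈ L.lattice then 0 else .some _ _ (mzga_nonsingular L h)

theorem mzgaPoint_of_mem (L : PeriodPair) {z : ℂ} (hz : z ∈ L.lattice) : mzgaPoint L z = 0 := by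
  simp [mzgaPoint, hz]

theorem mzgaPoint_of_notMem (L : PeriodPair) {z : ℂ} (hz : z ∉ L.lattice) :
    mzgaPoint L z = .some _ _ (mzga_nonsingular L hz) := by
  simp [mzgaPoint, hz]

theorem mzgaPoint_eq_zero_iff (L : PeriodPair) {z : ℂ} : mzgaPoint L z = 0 ↔ z ∈ L.lattice := by
  constructor
  · intro h
    by_contra hz
    rw [mzgaPoint_of_notMem L hz] at h
    exact Point.some_ne_zero _ h
  · exact mzgaPoint_of_mem L

theorem mzga_some_congr (L : PeriodPair) {x y x' y' : ℂ}
    (h : (mzgaCurve L).toAffine.Nonsingular x y) (h' : (mzgaCurve L).toAffine.Nonsingular x' y')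
    (hx : x = x') (hy : y = y') : Point.some x y h = Point.some x' y' h' := by
  subst hx hy; rfl

theorem mzgaPoint_eq_of_sub_mem (L : PeriodPair) {a b : ℂ} (h : a - b ∈ L.lattice) :
    mzgaPoint L a = mzgaPoint L b := by
  have hab : a = b + (⟨a - b, h⟩ : L.lattice) := by simp
  by_cases hb : b ∈ L.lattice
  · have ha : a ∈ L.lattice := by simpa using add_mem h hb
    rw [mzgaPoint_of_mem L ha, mzgaPoint_of_mem L hb]
  · have ha : a ∉ L.lattice := fun ha => hb (by simpa using sub_mem ha h)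
    rw [mzgaPoint_of_notMem L ha, mzgaPoint_of_notMem L hb]
    apply mzga_some_congr
    · rw [hab, L.weierstrassP_add_coe]
    · rw [hab, L.derivWeierstrassP_add_coe]

theorem mzgaPoint_neg (L : PeriodPair) (z : ℂ) : mzgaPoint L (-z) = -mzgaPoint L z := by
  by_cases hz : z ∈ L.lattice
  · rw [mzgaPoint_of_mem L hz, mzgaPoint_of_mem L (neg_mem hz)]; rfl
  · have hz' : -z ∉ L.lattice := by simpa using hz
    rw [mzgaPoint_of_notMem L hz, mzgaPoint_of_notMem L hz', Point.neg_some]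
    apply mzga_some_congr
    · simp
    · simp [WeierstrassCurve.Affine.negY]; ring

/-- Addition on generic pairs. -/
theorem mzgaPoint_add_of_ne (L : PeriodPair) {z w : ℂ} (hz : z ∉ L.lattice) (hw : w ∉ L.lattice)
    (hne : ℘[L] z ≠ ℘[L] w) : mzgaPoint L (z + w) = mzgaPoint L z + mzgaPoint L w := by
  have hzw : z + w ∉ L.lattice := mzgaGood_add_notMem L hw ⟨hz, hne⟩
  rw [mzgaPoint_of_notMem L hz, mzgaPoint_of_notMem L hw, mzgaPoint_of_notMem L hzw,
    Point.add_of_X_ne hne]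
  have hne' : ℘[L] z - ℘[L] w ≠ 0 := sub_ne_zero.mpr hne
  apply mzga_some_congr
  · rw [mzga_weierstrassP_add L hz hw hne, WeierstrassCurve.Affine.slope_of_X_ne hne]
    simp only [WeierstrassCurve.Affine.addX, mzgaCurve_a₁, mzgaCurve_a₂]
    field_simp
    ring
  · rw [mzga_derivWeierstrassP_add L hz hw hne, mzga_weierstrassP_add L hz hw hne,
      WeierstrassCurve.Affine.slope_of_X_ne hne]
    simp only [WeierstrassCurve.Affine.addY, WeierstrassCurve.Affine.negAddY,
      WeierstrassCurve.Affine.negY, WeierstrassCurve.Affine.addX, mzgaCurve_a₁, mzgaCurve_a₂,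
      mzgaCurve_a₃]
    field_simp
    ring

/-- There is a `t` avoiding countably many translates of the lattice. -/
theorem mzga_exists_generic (L : PeriodPair) (z : ℂ) :
    ∃ t : ℂ, t ∉ L.lattice ∧ 2 * t ∉ L.lattice ∧ z - t ∉ L.lattice ∧ z + t ∉ L.lattice := by
  set s : Set ℂ := (L.lattice : Set ℂ) ∪ (fun l => l / 2) '' (L.lattice : Set ℂ) ∪
    (fun l => z - l) '' (L.lattice : Set ℂ) ∪ (fun l => l - z) '' (L.lattice : Set ℂ) with hs
  have hcount : s.Countable :=
    (((mzga_countable_lattice L).union ((mzga_countable_lattice L).image _)).union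
      ((mzga_countable_lattice L).image _)).union ((mzga_countable_lattice L).image _)
  obtain ⟨t, ht⟩ := (hcount.dense_compl ℂ).nonempty
  refine ⟨t, ?_, ?_, ?_, ?_⟩
  · intro h; exact ht (Or.inl (Or.inl (Or.inl h)))
  · intro h; exact ht (Or.inl (Or.inl (Or.inr ⟨2 * t, h, by simp⟩)))
  · intro h; exact ht (Or.inl (Or.inr ⟨z - t, h, by simp⟩))
  · intro h; exact ht (Or.inr ⟨z + t, h, by simp⟩)

/-- Duplication. -/
theorem mzgaPoint_two (L : PeriodPair) {z : ℂ} (hz : z ∉ L.lattice) (h2z : z + z ∉ L.lattice) :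
    mzgaPoint L (z + z) = mzgaPoint L z + mzgaPoint L z := by
  obtain ⟨t, ht, h2t, hzt, hzt'⟩ := mzga_exists_generic L z
  have hnt : -t ∉ L.lattice := by simpa using ht
  have h1 : ℘[L] z ≠ ℘[L] t := by
    rw [Ne, mzga_weierstrassP_eq_iff L hz ht, not_or]; exact ⟨hzt, hzt'⟩
  have h2 : ℘[L] z ≠ ℘[L] (-t) := by simpa using h1
  have h3 : ℘[L] (z + t) ≠ ℘[L] (z + -t) := by
    rw [Ne, mzga_weierstrassP_eq_iff L hzt' (by simpa [sub_eq_add_neg] using hzt), not_or]
    constructor
    · have : z + t - (z + -t) = 2 * t := by ring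
      rwa [this]
    · have : z + t + (z + -t) = z + z := by ring
      rwa [this]
  have e1 := mzgaPoint_add_of_ne L hz ht h1
  have e2 := mzgaPoint_add_of_ne L hz hnt h2
  have e3 := mzgaPoint_add_of_ne L hzt' (by simpa [sub_eq_add_neg] using hzt) h3
  have : z + t + (z + -t) = z + z := by ring
  rw [this, e1, e2, mzgaPoint_neg] at e3
  rw [e3]
  abel

/-- The uniformisation is additive. -/
theorem mzgaPoint_add (L : PeriodPair) (z w : ℂ) :
    mzgaPoint L (z + w) = mzgaPoint L z + mzgaPoint L w := by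
  by_cases hz : z ∈ L.lattice
  · rw [mzgaPoint_of_mem L hz, zero_add]
    exact mzgaPoint_eq_of_sub_mem L (by simpa using hz)
  by_cases hw : w ∈ L.lattice
  · rw [mzgaPoint_of_mem L hw, add_zero]
    exact mzgaPoint_eq_of_sub_mem L (by simpa using hw)
  by_cases hzw : z + w ∈ L.lattice
  · rw [mzgaPoint_of_mem L hzw]
    have : mzgaPoint L w = mzgaPoint L (-z) :=
      mzgaPoint_eq_of_sub_mem L (by simpa [add_comm] using hzw)
    rw [this, mzgaPoint_neg]
    simp
  by_cases hne : ℘[L] z = ℘[L] w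
  · have hsub : z - w ∈ L.lattice := by
      rcases (mzga_weierstrassP_eq_iff L hz hw).mp hne with h | h
      · exact h
      · exact absurd h hzw
    have h1 : mzgaPoint L w = mzgaPoint L z :=
      mzgaPoint_eq_of_sub_mem L (by simpa using neg_mem hsub)
    have h2 : mzgaPoint L (z + w) = mzgaPoint L (z + z) :=
      mzgaPoint_eq_of_sub_mem L (by simpa using neg_mem hsub)
    have h2z : z + z ∉ L.lattice := by
      intro h
      apply hzw
      have : z + w = z + z - (z - w) := by ring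
      rw [this]; exact sub_mem h hsub
    rw [h1, h2, mzgaPoint_two L hz h2z]
  · exact mzgaPoint_add_of_ne L hz hw hne

/-- The uniformisation `ℂ → E_L(ℂ)` as a group homomorphism. -/
noncomputable def mzgaPointHom (L : PeriodPair) : ℂ →+ (mzgaCurve L).toAffine.Point where
  toFun := mzgaPoint L
  map_zero' := mzgaPoint_of_mem L (zero_mem _)
  map_add' := mzgaPoint_add L

theorem mzgaPointHom_of_notMem (L : PeriodPair) {z : ℂ} (hz : z ∉ L.lattice) :
    mzgaPointHom L z = .some _ _ (mzga_nonsingular L hz) :=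
  mzgaPoint_of_notMem L hz

theorem mzgaPointHom_eq_zero_iff (L : PeriodPair) {z : ℂ} :
    mzgaPointHom L z = 0 ↔ z ∈ L.lattice :=
  mzgaPoint_eq_zero_iff L

theorem mzgaPointHom_surjective (L : PeriodPair) : Function.Surjective (mzgaPointHom L) := by
  rintro (_ | ⟨x, y, h⟩)
  · exact ⟨0, map_zero _⟩
  · have heq := (mzga_equation_iff L x y).mp h.1
    obtain ⟨z, hz, hx, hy⟩ := mzga_exists_point L heq
    refine ⟨z, ?_⟩
    rw [mzgaPointHom_of_notMem L hz]
    apply mzga_some_congr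
    · exact hx
    · rw [hy]; ring

end Fermat.Agent.Mazur
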