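import Fermat.Agent.Lib.Mazur.G.An.PointHom
import Fermat.Agent.Lib.X015.VariableChangePoint

/-!
# MAZUR (G), analysis chain AN4a: transport of rational points to the uniformised curve

For an elliptic curve `W` over `ℚ` and a period pair `L` with `g₂ = c₄/12`, `g₃ = c₆/216`, the map
`(x, y) ↦ (x + b₂/12, y + (a₁ x + a₃)/2)` is an injective group homomorphism
`W(ℚ) → (mzgaCurve L)(ℂ)`.
-/

open WeierstrassCurve WeierstrassCurve.Affine
open Fermat.Agent.X015

namespace Fermat.Agent.Mazur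

/-- `ψ₂` of a point: `2y + a₁x + a₃` (and `1` at the origin). -/
def mzgaPsi2 {F : Type*} [Field F] (W : WeierstrassCurve F) : W.toAffine.Point → F
  | .zero => 1
  | .some x y _ => 2 * y + W.a₁ * x + W.a₃

/-- `∏_{0 < m < p} ψ₂(m Q)`. -/
noncomputable def mzgaPi {F : Type*} [Field F] [DecidableEq F] (W : WeierstrassCurve F)
    (Q : W.toAffine.Point) (p : ℕ) : F :=
  ∏ m ∈ Finset.Ico 1 p, mzgaPsi2 W (m • Q)

/-- Base change of points along a field embedding (direct version of Mathlib's `Point.map`). -/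
noncomputable def mzgaMapPoint {F K : Type*} [Field F] [Field K] [DecidableEq F] [DecidableEq K]
    (f : F →+* K) (W : WeierstrassCurve F) : W.toAffine.Point →+ (W.map f).toAffine.Point where
  toFun P := match P with
    | .zero => 0
    | .some x y h => .some (f x) (f y) ((W.toAffine.map_nonsingular f.injective x y).mpr h)
  map_zero' := rfl
  map_add' := by
    rintro (_ | ⟨x₁, y₁, h₁⟩) (_ | ⟨x₂, y₂, h₂⟩)
    any_goals rfl
    by_cases hxy : x₁ = x₂ ∧ y₁ = W.toAffine.negY x₂ y₂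
    · rw [Point.add_of_Y_eq hxy.left hxy.right]
      exact (Point.add_of_Y_eq (congr_arg _ hxy.left) <| by
        rw [hxy.right]; exact (WeierstrassCurve.Affine.map_negY ..).symm).symm
    · have := Point.add_some (W := (W.map f).toAffine) (x₁ := f x₁) (x₂ := f x₂) (y₁ := f y₁)
        (y₂ := f y₂) (h₁ := (W.toAffine.map_nonsingular f.injective x₁ y₁).mpr h₁)
        (h₂ := (W.toAffine.map_nonsingular f.injective x₂ y₂).mpr h₂)
        (fun h ↦ hxy ⟨f.injective h.1, f.injective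
          ((WeierstrassCurve.Affine.map_negY (W' := W.toAffine) (f := f) ..) ▸ h.2)⟩)
      rw [Point.add_some hxy]
      refine Eq.trans ?_ this.symm
      simp only [← WeierstrassCurve.Affine.map_addX, ← WeierstrassCurve.Affine.map_addY,
        ← WeierstrassCurve.Affine.map_slope]

theorem mzgaMapPoint_some {F K : Type*} [Field F] [Field K] [DecidableEq F] [DecidableEq K]
    (f : F →+* K) (W : WeierstrassCurve F) {x y : F} (h : W.toAffine.Nonsingular x y) :
    mzgaMapPoint f W (.some x y h) =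
      .some (f x) (f y) ((W.toAffine.map_nonsingular f.injective x y).mpr h) := rfl

theorem mzgaMapPoint_injective {F K : Type*} [Field F] [Field K] [DecidableEq F] [DecidableEq K]
    (f : F →+* K) (W : WeierstrassCurve F) : Function.Injective (mzgaMapPoint f W) := by
  rintro (_ | ⟨x₁, y₁, h₁⟩) (_ | ⟨x₂, y₂, h₂⟩) h
  · rfl
  · exact absurd h (by simp [mzgaMapPoint])
  · exact absurd h (by simp [mzgaMapPoint])
  · simp only [mzgaMapPoint_some, Point.some.injEq] at h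
    obtain ⟨hx, hy⟩ := h
    have hx' := f.injective hx
    have hy' := f.injective hy
    subst hx' hy'
    rfl

section
variable (W : WeierstrassCurve ℚ)

/-- The change of variables to the short model. -/
noncomputable def mzgaVC : VariableChange ℂ where
  u := 1
  r := -((W.b₂ : ℚ) : ℂ) / 12
  s := -((W.a₁ : ℚ) : ℂ) / 2
  t := -(((W.a₁ : ℚ) : ℂ) * (-((W.b₂ : ℚ) : ℂ) / 12) + ((W.a₃ : ℚ) : ℂ)) / 2

theorem mzgaVC_smul_eq (L : PeriodPair) (h2 : L.g₂ = ((W.c₄ : ℚ) : ℂ) / 12)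
    (h3 : L.g₃ = ((W.c₆ : ℚ) : ℂ) / 216) :
    mzgaVC W • (W.map (algebraMap ℚ ℂ)) = mzgaCurve L := by
  ext
  · simp [variableChange_a₁, mzgaVC]; ring
  · simp [variableChange_a₂, mzgaVC, WeierstrassCurve.b₂]; ring
  · simp [variableChange_a₃, mzgaVC]; ring
  · simp [variableChange_a₄, mzgaVC, h2, WeierstrassCurve.c₄, WeierstrassCurve.b₂,
      WeierstrassCurve.b₄]; ring
  · simp [variableChange_a₆, mzgaVC, h3, WeierstrassCurve.c₆, WeierstrassCurve.b₂,
      WeierstrassCurve.b₄, WeierstrassCurve.b₆]; ring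

/-- The transport map `W(ℚ) → (mzgaCurve L)(ℂ)`. -/
noncomputable def mzgaTransport (L : PeriodPair) (h2 : L.g₂ = ((W.c₄ : ℚ) : ℂ) / 12)
    (h3 : L.g₃ = ((W.c₆ : ℚ) : ℂ) / 216) :
    W.toAffine.Point →+ (mzgaCurve L).toAffine.Point :=
  ((pointCongr (mzgaVC_smul_eq W L h2 h3)).toAddMonoidHom.comp
    (vcPointEquiv (mzgaVC W) (W.map (algebraMap ℚ ℂ))).toAddMonoidHom).comp
    (mzgaMapPoint (algebraMap ℚ ℂ) W)

theorem mzgaTransport_some (L : PeriodPair) (h2 : L.g₂ = ((W.c₄ : ℚ) : ℂ) / 12)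
    (h3 : L.g₃ = ((W.c₆ : ℚ) : ℂ) / 216) {x y : ℚ} (h : W.toAffine.Nonsingular x y) :
    ∃ h', mzgaTransport W L h2 h3 (.some x y h) =
      .some ((x : ℂ) + ((W.b₂ : ℚ) : ℂ) / 12)
        ((y : ℂ) + (((W.a₁ : ℚ) : ℂ) * x + ((W.a₃ : ℚ) : ℂ)) / 2) h' := by
  have hns : (W.map (algebraMap ℚ ℂ)).toAffine.Nonsingular (algebraMap ℚ ℂ x) (algebraMap ℚ ℂ y) :=
    (W.toAffine.map_nonsingular (algebraMap ℚ ℂ).injective x y).mpr h
  obtain ⟨h1, e1⟩ := vcPointEquiv_some (mzgaVC W) (W.map (algebraMap ℚ ℂ)) hns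
  have e2 := pointCongr_some (mzgaVC_smul_eq W L h2 h3) h1
  have hx : vcXinv (mzgaVC W) (algebraMap ℚ ℂ x) = (x : ℂ) + ((W.b₂ : ℚ) : ℂ) / 12 := by
    simp [vcXinv, mzgaVC]; ring
  have hy : vcYinv (mzgaVC W) (algebraMap ℚ ℂ x) (algebraMap ℚ ℂ y) =
      (y : ℂ) + (((W.a₁ : ℚ) : ℂ) * x + ((W.a₃ : ℚ) : ℂ)) / 2 := by
    simp [vcYinv, mzgaVC]; ring
  have key : mzgaTransport W L h2 h3 (.some x y h) =
      .some (vcXinv (mzgaVC W) (algebraMap ℚ ℂ x))
        (vcYinv (mzgaVC W) (algebraMap ℚ ℂ x) (algebraMap ℚ ℂ y))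
        (mzgaVC_smul_eq W L h2 h3 ▸ h1) := by
    show (pointCongr (mzgaVC_smul_eq W L h2 h3)) ((vcPointEquiv (mzgaVC W)
      (W.map (algebraMap ℚ ℂ))) (mzgaMapPoint (algebraMap ℚ ℂ) W (.some x y h))) = _
    rw [mzgaMapPoint_some, e1, e2]
  rw [key]
  refine ⟨hx ▸ hy ▸ (mzgaVC_smul_eq W L h2 h3 ▸ h1), ?_⟩
  exact mzga_some_congr _ _ _ hx hy

theorem mzgaTransport_injective (L : PeriodPair) (h2 : L.g₂ = ((W.c₄ : ℚ) : ℂ) / 12)
    (h3 : L.g₃ = ((W.c₆ : ℚ) : ℂ) / 216) : Function.Injective (mzgaTransport W L h2 h3) := by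
  have : ⇑(mzgaTransport W L h2 h3) = (pointCongr (mzgaVC_smul_eq W L h2 h3)) ∘
      (vcPointEquiv (mzgaVC W) (W.map (algebraMap ℚ ℂ))) ∘ (mzgaMapPoint (algebraMap ℚ ℂ) W) := rfl
  rw [this]
  exact (pointCongr _).injective.comp ((vcPointEquiv _ _).injective.comp
    (mzgaMapPoint_injective _ _))

end

end Fermat.Agent.Mazur
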